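import Fermat.Agent.FLTSmall.KummerUnits

set_option autoImplicit false

namespace Fermat.Agent.FLTSmall

open NumberField NumberField.Units

section

variable {p : ℕ} [hp : Fact p.Prime] {K : Type*} [Field K] [NumberField K]
  [IsCyclotomicExtension {p} ℚ K]

/-- In the `p`-th cyclotomic ring, every `p`-th power is congruent to a rational integer
modulo `p`. -/
theorem exists_int_dvd_pow_sub (x : 𝓞 K) : ∃ b : ℤ, (p : 𝓞 K) ∣ x ^ p - b := by
  have : NeZero p := ⟨hp.out.ne_zero⟩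
  have hζ := IsCyclotomicExtension.zeta_spec p ℚ K
  have htop : Algebra.adjoin ℤ {hζ.toInteger} = ⊤ := by
    rw [← hζ.integralPowerBasis_gen]
    exact hζ.integralPowerBasis.adjoin_gen_eq_top
  have hx : x ∈ Algebra.adjoin ℤ {hζ.toInteger} := by rw [htop]; trivial
  induction hx using Algebra.adjoin_induction with
  | mem y hy =>
    rw [Set.mem_singleton_iff] at hy
    refine ⟨1, ?_⟩
    rw [hy, hζ.toInteger_isPrimitiveRoot.pow_eq_one]
    simp
  | algebraMap r =>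
    exact ⟨r ^ p, by simp⟩
  | add y z _ _ hy hz =>
    obtain ⟨b, hb⟩ := hy
    obtain ⟨c, hc⟩ := hz
    obtain ⟨r, hr⟩ := exists_add_pow_prime_eq hp.out y z
    refine ⟨b + c, ?_⟩
    have : (y + z) ^ p - ((b + c : ℤ) : 𝓞 K) = (y ^ p - b) + (z ^ p - c) + p * (y * z * r) := by
      rw [hr]; push_cast; ring
    rw [this]
    exact dvd_add (dvd_add hb hc) (dvd_mul_right _ _)
  | mul y z _ _ hy hz =>
    obtain ⟨b, hb⟩ := hy
    obtain ⟨c, hc⟩ := hz
    refine ⟨b * c, ?_⟩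
    have : (y * z) ^ p - ((b * c : ℤ) : 𝓞 K) = (y ^ p - b) * z ^ p + b * (z ^ p - c) := by
      push_cast; ring
    rw [this]
    exact dvd_add (dvd_mul_of_dvd_left hb _) (dvd_mul_of_dvd_right hc _)

omit [IsCyclotomicExtension {p} ℚ K] in
/-- `p` is not a unit in the ring of integers. -/
theorem KummerUnits.not_isUnit_prime_cast : ¬ IsUnit (p : 𝓞 K) := by
  intro h
  have h1 : IsUnit ((p : ℤ) : 𝓞 K) := by simpa using h
  have h2 : IsUnit (Algebra.norm ℤ ((p : ℤ) : 𝓞 K)) := h1.map (Algebra.norm ℤ)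
  have h3 : Algebra.norm ℤ ((p : ℤ) : 𝓞 K) = (p : ℤ) ^ Module.finrank ℤ (𝓞 K) := by
    have := Algebra.norm_algebraMap (R := ℤ) (S := 𝓞 K) (p : ℤ)
    simpa using this
  rw [h3] at h2
  have hfr : Module.finrank ℤ (𝓞 K) ≠ 0 := by
    rw [RingOfIntegers.rank]
    exact Module.finrank_pos.ne'
  have h4 := (isUnit_pow_iff hfr).1 h2
  rw [Int.isUnit_iff] at h4
  have := hp.out.two_le
  omega

/-- **Final assembly**: if a family of `(p-1)/2` units has the property that a product of powers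
congruent to an integer mod `p` must have all exponents divisible by `p`, then Kummer's lemma
holds. -/
theorem kummer_of_star (hp2 : p ≠ 2) (g : Fin ((p - 1) / 2) → (𝓞 K)ˣ)
    (hstar : ∀ (c : Fin ((p - 1) / 2) → ℕ) (a : ℤ),
      (p : 𝓞 K) ∣ ((∏ i, g i ^ c i : (𝓞 K)ˣ) : 𝓞 K) - a → ∀ i, p ∣ c i)
    (u : (𝓞 K)ˣ) (a : ℤ) (hu : (p : 𝓞 K) ∣ (u : 𝓞 K) - a) : ∃ v : (𝓞 K)ˣ, u = v ^ p := by
  -- independence modulo p-th powers
  have hg : ∀ c : Fin ((p - 1) / 2) → ℕ,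
      (∃ v : (𝓞 K)ˣ, ∏ i, g i ^ c i = v ^ p) → ∀ i, p ∣ c i := by
    rintro c ⟨v, hv⟩
    obtain ⟨b, hb⟩ := exists_int_dvd_pow_sub (p := p) (v : 𝓞 K)
    exact hstar c b (by rw [hv]; simpa using hb)
  obtain ⟨c, v, hcv⟩ := units_span_of_indep hp2 g hg u
  obtain ⟨b, hb⟩ := exists_int_dvd_pow_sub (p := p) (v : 𝓞 K)
  -- `b` is invertible mod `p`
  have hbp : ¬ (p : ℤ) ∣ b := by
    intro hdvd
    have h1 : (p : 𝓞 K) ∣ (b : 𝓞 K) := by
      obtain ⟨k, rfl⟩ := hdvd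
      exact ⟨k, by push_cast; ring⟩
    have h2 : (p : 𝓞 K) ∣ (v : 𝓞 K) ^ p := by
      have := dvd_add hb h1
      simpa using this
    have h3 : IsUnit ((v : 𝓞 K) ^ p) := (v ^ p).isUnit
    exact KummerUnits.not_isUnit_prime_cast (p := p) (K := K) (isUnit_of_dvd_unit h2 h3)
  have hcop : IsCoprime b (p : ℤ) :=
    ((Nat.prime_iff_prime_int.1 hp.out).coprime_iff_not_dvd.2 hbp).symm
  obtain ⟨s, t, hst⟩ := hcop
  -- `∏ g_i^{c_i} ≡ a * s (mod p)`
  have key : (p : 𝓞 K) ∣ ((∏ i, g i ^ c i : (𝓞 K)ˣ) : 𝓞 K) - ((a * s : ℤ) : 𝓞 K) := by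
    set P : 𝓞 K := ((∏ i, g i ^ c i : (𝓞 K)ˣ) : 𝓞 K) with hP
    have hu' : (u : 𝓞 K) = P * (v : 𝓞 K) ^ p := by
      rw [hcv]; simp [hP]
    have hst' : (s : 𝓞 K) * b + t * p = 1 := by exact_mod_cast congrArg (Int.cast : ℤ → 𝓞 K) hst
    have : P - ((a * s : ℤ) : 𝓞 K) =
        p * (P * t) - s * P * ((v : 𝓞 K) ^ p - b) + s * ((u : 𝓞 K) - a) := by
      push_cast
      rw [hu']
      linear_combination (-P) * hst'
    rw [this]
    exact dvd_add (dvd_sub (dvd_mul_right _ _) (dvd_mul_of_dvd_right hb _))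
      (dvd_mul_of_dvd_right hu _)
  have hdiv := hstar c (a * s) key
  choose d hd using hdiv
  refine ⟨(∏ i, g i ^ d i) * v, ?_⟩
  rw [hcv, mul_pow, ← Finset.prod_pow]
  congr 1
  refine Finset.prod_congr rfl fun i _ => ?_
  rw [← pow_mul, hd i, mul_comm]

end

end Fermat.Agent.FLTSmall
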