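import Fermat.Agent.FLTSmall.KummerDlog

/-!
# Kummer's lemma, certificates for `p = 5, 7, 11, 13` (TFLT piece B3, part C)

`hstar_P`: if a product of powers of the cyclotomic units `ζ, 1+ζ, 1+ζ+ζ², …`
(`(P-1)/2` of them, `Dlog.cycloUnit P K i`) is congruent to a rational integer modulo `P`,
then all exponents are divisible by `P`.
-/

open Polynomial NumberField

namespace Fermat.Agent.FLTSmall.Dlog

theorem fact_prime_five : Fact (Nat.Prime 5) := ⟨by norm_num⟩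

attribute [local instance] fact_prime_five

theorem cert_five (c : Fin 2 → ℕ)
    (h : (X : (ZMod 5)[X]) ^ (5 - 2) ∣
      logDerNum (fun i : Fin 2 => Gpoly (ZMod 5) (i : ℕ)) c Finset.univ) : ∀ i, 5 ∣ c i :=
  cert_of_matrix 5 2 ![0, 1] (by decide)
    (fun d i0 =>
      ![![1, 4], ![4, 2]] d i0)
    (by decide) c h

/-- The `hstar` hypothesis of Kummer's lemma for `p = 5`. -/
theorem hstar_five (K : Type*) [Field K] [NumberField K] [IsCyclotomicExtension {5} ℚ K]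
    (c : Fin ((5 - 1) / 2) → ℕ) (a : ℤ)
    (h : ((5 : ℕ) : 𝓞 K) ∣
      ((∏ i : Fin ((5 - 1) / 2), cycloUnit 5 K (i : ℕ) ^ c i : (𝓞 K)ˣ) : 𝓞 K) - a) :
    ∀ i, 5 ∣ c i :=
  hstar_of_cert 5 K 2 (by norm_num) cert_five c a h

theorem fact_prime_seven : Fact (Nat.Prime 7) := ⟨by norm_num⟩

attribute [local instance] fact_prime_seven

theorem cert_seven (c : Fin 3 → ℕ)
    (h : (X : (ZMod 7)[X]) ^ (7 - 2) ∣
      logDerNum (fun i : Fin 3 => Gpoly (ZMod 7) (i : ℕ)) c Finset.univ) : ∀ i, 7 ∣ c i :=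
  cert_of_matrix 7 3 ![0, 1, 3] (by decide)
    (fun d i0 =>
      ![![5, 4, 6], ![0, 5, 1], ![6, 1, 4]] d i0)
    (by decide) c h

/-- The `hstar` hypothesis of Kummer's lemma for `p = 7`. -/
theorem hstar_seven (K : Type*) [Field K] [NumberField K] [IsCyclotomicExtension {7} ℚ K]
    (c : Fin ((7 - 1) / 2) → ℕ) (a : ℤ)
    (h : ((7 : ℕ) : 𝓞 K) ∣
      ((∏ i : Fin ((7 - 1) / 2), cycloUnit 7 K (i : ℕ) ^ c i : (𝓞 K)ˣ) : 𝓞 K) - a) :
    ∀ i, 7 ∣ c i :=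
  hstar_of_cert 7 K 3 (by norm_num) cert_seven c a h

theorem fact_prime_eleven : Fact (Nat.Prime 11) := ⟨by norm_num⟩

attribute [local instance] fact_prime_eleven

theorem cert_eleven (c : Fin 5 → ℕ)
    (h : (X : (ZMod 11)[X]) ^ (11 - 2) ∣
      logDerNum (fun i : Fin 5 => Gpoly (ZMod 11) (i : ℕ)) c Finset.univ) : ∀ i, 11 ∣ c i :=
  cert_of_matrix 11 5 ![0, 1, 3, 5, 7] (by decide)
    (fun d i0 =>
      ![![0, 8, 1, 7, 0], ![5, 3, 10, 8, 5], ![10, 9, 5, 3, 10], ![6, 0, 2, 10, 5],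
        ![2, 10, 6, 7, 2]] d i0)
    (by decide) c h

/-- The `hstar` hypothesis of Kummer's lemma for `p = 11`. -/
theorem hstar_eleven (K : Type*) [Field K] [NumberField K] [IsCyclotomicExtension {11} ℚ K]
    (c : Fin ((11 - 1) / 2) → ℕ) (a : ℤ)
    (h : ((11 : ℕ) : 𝓞 K) ∣
      ((∏ i : Fin ((11 - 1) / 2), cycloUnit 11 K (i : ℕ) ^ c i : (𝓞 K)ˣ) : 𝓞 K) - a) :
    ∀ i, 11 ∣ c i :=
  hstar_of_cert 11 K 5 (by norm_num) cert_eleven c a h

theorem fact_prime_thirteen : Fact (Nat.Prime 13) := ⟨by norm_num⟩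

attribute [local instance] fact_prime_thirteen

theorem cert_thirteen (c : Fin 6 → ℕ)
    (h : (X : (ZMod 13)[X]) ^ (13 - 2) ∣
      logDerNum (fun i : Fin 6 => Gpoly (ZMod 13) (i : ℕ)) c Finset.univ) : ∀ i, 13 ∣ c i :=
  cert_of_matrix 13 6 ![0, 1, 3, 5, 7, 9] (by decide)
    (fun d i0 =>
      ![![10, 12, 12, 10, 11, 11], ![6, 1, 10, 5, 3, 1], ![10, 5, 5, 6, 2, 6],
        ![11, 9, 5, 12, 5, 4], ![8, 3, 7, 7, 0, 10], ![6, 9, 4, 10, 1, 3]] d i0)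
    (by decide) c h

/-- The `hstar` hypothesis of Kummer's lemma for `p = 13`. -/
theorem hstar_thirteen (K : Type*) [Field K] [NumberField K] [IsCyclotomicExtension {13} ℚ K]
    (c : Fin ((13 - 1) / 2) → ℕ) (a : ℤ)
    (h : ((13 : ℕ) : 𝓞 K) ∣
      ((∏ i : Fin ((13 - 1) / 2), cycloUnit 13 K (i : ℕ) ^ c i : (𝓞 K)ˣ) : 𝓞 K) - a) :
    ∀ i, 13 ∣ c i :=
  hstar_of_cert 13 K 6 (by norm_num) cert_thirteen c a h

end Fermat.Agent.FLTSmall.Dlog
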