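import Fermat.Agent.FLTSmall.Main
import Fermat.Agent.FLTSmall.KummerAssembly
import Fermat.Agent.FLTSmall.KummerCert

/-!
# Kummer's lemma for `p = 5, 7, 11, 13` and Fermat's Last Theorem for these exponents
-/

set_option autoImplicit false

namespace Fermat.Agent.FLTSmall

open NumberField

theorem kummerLemmaFor_five : KummerLemmaFor 5 := by
  rintro u ⟨n, hn⟩
  exact kummer_of_star (p := 5) (K := CyclotomicField 5 ℚ) (by norm_num)
    (fun i => Dlog.cycloUnit 5 (CyclotomicField 5 ℚ) (i : ℕ))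
    (Dlog.hstar_five (CyclotomicField 5 ℚ)) u n hn

theorem kummerLemmaFor_seven : KummerLemmaFor 7 := by
  rintro u ⟨n, hn⟩
  exact kummer_of_star (p := 7) (K := CyclotomicField 7 ℚ) (by norm_num)
    (fun i => Dlog.cycloUnit 7 (CyclotomicField 7 ℚ) (i : ℕ))
    (Dlog.hstar_seven (CyclotomicField 7 ℚ)) u n hn

theorem kummerLemmaFor_eleven : KummerLemmaFor 11 := by
  rintro u ⟨n, hn⟩
  exact kummer_of_star (p := 11) (K := CyclotomicField 11 ℚ) (by norm_num)
    (fun i => Dlog.cycloUnit 11 (CyclotomicField 11 ℚ) (i : ℕ))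
    (Dlog.hstar_eleven (CyclotomicField 11 ℚ)) u n hn

theorem kummerLemmaFor_thirteen : KummerLemmaFor 13 := by
  rintro u ⟨n, hn⟩
  exact kummer_of_star (p := 13) (K := CyclotomicField 13 ℚ) (by norm_num)
    (fun i => Dlog.cycloUnit 13 (CyclotomicField 13 ℚ) (i : ℕ))
    (Dlog.hstar_thirteen (CyclotomicField 13 ℚ)) u n hn

theorem flt_five : FermatLastTheoremFor 5 := fermatLastTheoremFor_five kummerLemmaFor_five

theorem flt_seven : FermatLastTheoremFor 7 := fermatLastTheoremFor_seven kummerLemmaFor_seven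

theorem flt_eleven : FermatLastTheoremFor 11 := fermatLastTheoremFor_eleven kummerLemmaFor_eleven

theorem flt_thirteen : FermatLastTheoremFor 13 :=
  fermatLastTheoremFor_thirteen kummerLemmaFor_thirteen

end Fermat.Agent.FLTSmall
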