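import Fermat.Agent.FLTSmall.SophieGermain

set_option autoImplicit false

namespace Fermat.Agent.FLTSmall

/-- If `a ^ p + b ^ p = c ^ p` with `a`, `b` coprime and `0 < p`, then `b`, `c` and `c`, `a` are
coprime as well. -/
lemma isCoprime_of_flt_eq {p : ℕ} (hp0 : 0 < p) {a b c : ℤ} (h : a ^ p + b ^ p = c ^ p)
    (hab : IsCoprime a b) : IsCoprime b c ∧ IsCoprime c a := by
  have epow : ∀ t : ℤ, t ^ p = t * t ^ (p - 1) := fun t => by
    rw [← pow_succ', Nat.sub_add_cancel hp0]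
  constructor
  · rw [← IsCoprime.pow_right_iff hp0, ← h]
    have h1 : IsCoprime b (a ^ p) := (IsCoprime.pow_right_iff hp0).mpr hab.symm
    rw [epow b]
    exact h1.add_mul_left_right _
  · rw [← IsCoprime.pow_left_iff hp0, ← h]
    have h1 : IsCoprime (b ^ p) a := (IsCoprime.pow_left_iff hp0).mpr hab.symm
    rw [add_comm, epow a]
    exact h1.add_mul_left_left _

/-- Case I of FLT for exponent 5. -/
theorem caseI_5 : ∀ a b c : ℤ, IsCoprime a b → a ^ 5 + b ^ 5 = c ^ 5 → (5 : ℤ) ∣ a * b * c := by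
  intro a b c hab h
  obtain ⟨hbc, hca⟩ := isCoprime_of_flt_eq (by norm_num) h hab
  exact_mod_cast caseI_small (p := 5) (by norm_num) h hab hbc hca

/-- Case I of FLT for exponent 7. -/
theorem caseI_7 : ∀ a b c : ℤ, IsCoprime a b → a ^ 7 + b ^ 7 = c ^ 7 → (7 : ℤ) ∣ a * b * c := by
  intro a b c hab h
  obtain ⟨hbc, hca⟩ := isCoprime_of_flt_eq (by norm_num) h hab
  exact_mod_cast caseI_small (p := 7) (by norm_num) h hab hbc hca

/-- Case I of FLT for exponent 11. -/
theorem caseI_11 :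
    ∀ a b c : ℤ, IsCoprime a b → a ^ 11 + b ^ 11 = c ^ 11 → (11 : ℤ) ∣ a * b * c := by
  intro a b c hab h
  obtain ⟨hbc, hca⟩ := isCoprime_of_flt_eq (by norm_num) h hab
  exact_mod_cast caseI_small (p := 11) (by norm_num) h hab hbc hca

/-- Case I of FLT for exponent 13. -/
theorem caseI_13 :
    ∀ a b c : ℤ, IsCoprime a b → a ^ 13 + b ^ 13 = c ^ 13 → (13 : ℤ) ∣ a * b * c := by
  intro a b c hab h
  obtain ⟨hbc, hca⟩ := isCoprime_of_flt_eq (by norm_num) h hab
  exact_mod_cast caseI_small (p := 13) (by norm_num) h hab hbc hca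

end Fermat.Agent.FLTSmall
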