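import Mathlib

set_option autoImplicit false

open Polynomial Finset

namespace Fermat.Agent.FLTSmall

section abstractDescent

variable {R : Type*} [CommRing R]
variable {p : ℕ} {ζ : R}

/-- Every `p`-th power is congruent to an integer modulo `p`. -/
lemma exists_int_pow_sub_dvd (hp : p.Prime) (hassoc : Associated (p : R) ((ζ - 1) ^ (p - 1)))
    (hint : ∀ ρ : R, ∃ n : ℤ, ζ - 1 ∣ ρ - n) (ρ : R) : ∃ n : ℤ, (p : R) ∣ ρ ^ p - n := by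
  obtain ⟨n, σ, hσ⟩ := hint ρ
  refine ⟨n ^ p, ?_⟩
  have h1 : ρ = n + (ζ - 1) * σ := by rw [← hσ]; ring
  have hpdvd : (p : R) ∣ ((ζ - 1) * σ) ^ p := by
    rw [mul_pow]
    exact Dvd.dvd.mul_right (hassoc.dvd.trans (pow_dvd_pow _ (Nat.sub_le _ _))) _
  obtain ⟨t, ht⟩ := hpdvd
  rw [h1, add_pow_prime_eq hp, ht]
  push_cast
  exact ⟨t + (n : R) * ((ζ - 1) * σ) * ∑ k ∈ Finset.Ioo 0 p,
    (n : R) ^ (k - 1) * ((ζ - 1) * σ) ^ (p - k - 1) * ((p.choose k / p : ℕ) : R), by ring⟩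

/-- `ζ - 1` divides an integer iff `p` does. -/
lemma sub_one_dvd_intCast_iff (hp : p.Prime) (hprime : Prime (ζ - 1))
    (hassoc : Associated (p : R) ((ζ - 1) ^ (p - 1))) {n : ℤ} :
    ζ - 1 ∣ (n : R) ↔ (p : ℤ) ∣ n := by
  have hp1 : 1 ≤ p - 1 := by have := hp.two_le; omega
  have hdvd : ζ - 1 ∣ (p : R) := (dvd_pow_self _ (by omega)).trans hassoc.symm.dvd
  constructor
  · intro h
    by_contra hn
    have hcop : IsCoprime (p : ℤ) n :=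
      (Nat.prime_iff_prime_int.1 hp).coprime_iff_not_dvd.2 hn
    obtain ⟨r, s, hrs⟩ := hcop
    have h3 : ζ - 1 ∣ ((r * p + s * n : ℤ) : R) := by
      push_cast
      exact dvd_add (Dvd.dvd.mul_left hdvd _) (Dvd.dvd.mul_left h _)
    rw [hrs, Int.cast_one] at h3
    exact hprime.not_isUnit (isUnit_of_dvd_one h3)
  · rintro ⟨k, rfl⟩
    push_cast
    exact Dvd.dvd.mul_right hdvd _

variable [IsDomain R]

lemma sub_one_dvd_add_mul (hp : p.Prime) (hp2 : p ≠ 2) (hζ : IsPrimitiveRoot ζ p)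
    (hprime : Prime (ζ - 1)) {x y : R} (h : ζ - 1 ∣ x ^ p + y ^ p) :
    ∀ η ∈ nthRootsFinset p (1 : R), ζ - 1 ∣ x + η * y := by
  have hodd : Odd p := hp.odd_of_ne_two hp2
  rw [hζ.pow_add_pow_eq_prod_add_mul x y hodd, hprime.dvd_finsetProd_iff] at h
  obtain ⟨η₀, hη₀, h₀⟩ := h
  intro η hη
  have h1 : x + η * y = (x + η₀ * y) + (η - η₀) * y := by ring
  rw [h1]
  exact dvd_add h₀ (Dvd.dvd.mul_right (hζ.sub_one_dvd_sub hp hη hη₀) _)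

omit [IsDomain R] in
lemma not_sub_one_dvd_right (hprime : Prime (ζ - 1)) {x y : R} (hxy : IsCoprime x y)
    (h : ζ - 1 ∣ x + y) : ¬ ζ - 1 ∣ y := by
  intro hy
  have hx : ζ - 1 ∣ x := (dvd_add_left hy).1 h
  exact hprime.not_isUnit (hxy.isUnit_of_dvd' hx hy)

/-- After multiplying `y` by a root of unity we may assume `(ζ - 1) ^ 2 ∣ x + y`. -/
lemma exists_sq_dvd (hp : p.Prime) (hp2 : p ≠ 2) (hζ : IsPrimitiveRoot ζ p)
    (hprime : Prime (ζ - 1)) (hassoc : Associated (p : R) ((ζ - 1) ^ (p - 1)))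
    (hint : ∀ ρ : R, ∃ n : ℤ, ζ - 1 ∣ ρ - n) {x y : R} (hxy : IsCoprime x y)
    (h : ζ - 1 ∣ x ^ p + y ^ p) :
    ∃ y' : R, IsCoprime x y' ∧ y' ^ p = y ^ p ∧ (ζ - 1) ^ 2 ∣ x + y' := by
  classical
  have hppos : 0 < p := hp.pos
  have hdiv := sub_one_dvd_add_mul hp hp2 hζ hprime h
  have h1mem : (1 : R) ∈ nthRootsFinset p (1 : R) := by
    rw [mem_nthRootsFinset hppos]; exact one_pow p
  have hy : ¬ ζ - 1 ∣ y := by
    refine not_sub_one_dvd_right hprime hxy ?_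
    simpa using hdiv 1 h1mem
  have hex : ∀ η : R, ∃ a : R, η ∈ nthRootsFinset p (1 : R) → x + η * y = (ζ - 1) * a := by
    intro η
    by_cases hη : η ∈ nthRootsFinset p (1 : R)
    · obtain ⟨a, ha⟩ := hdiv η hη
      exact ⟨a, fun _ => ha⟩
    · exact ⟨0, fun h => absurd h hη⟩
  choose a ha using hex
  have hinj : ∀ η₁ ∈ nthRootsFinset p (1 : R), ∀ η₂ ∈ nthRootsFinset p (1 : R),
      ζ - 1 ∣ a η₁ - a η₂ → η₁ = η₂ := by
    intro η₁ h₁ η₂ h₂ hd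
    by_contra hne
    obtain ⟨u, hu⟩ := hζ.nthRootsFinset_pairwise_associated_sub_one_sub_of_prime hp h₁ h₂ hne
    have e : (ζ - 1) * (a η₁ - a η₂) = (ζ - 1) * (u * y) := by
      rw [mul_sub, ← ha η₁ h₁, ← ha η₂ h₂, ← mul_assoc, hu]; ring
    have e' := mul_left_cancel₀ hprime.ne_zero e
    rw [e'] at hd
    exact hy ((u.isUnit.dvd_mul_left).1 hd)
  choose n hn using hint
  have : NeZero p := ⟨hp.ne_zero⟩
  let f : (nthRootsFinset p (1 : R)) → ZMod p := fun η => ((n (a η.1) : ℤ) : ZMod p)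
  have hf : Function.Injective f := by
    intro η₁ η₂ h12
    have h3 : (p : ℤ) ∣ n (a η₂.1) - n (a η₁.1) :=
      (ZMod.intCast_eq_intCast_iff_dvd_sub _ _ p).1 h12
    have h4 : ζ - 1 ∣ ((n (a η₂.1) - n (a η₁.1) : ℤ) : R) :=
      (sub_one_dvd_intCast_iff hp hprime hassoc).2 h3
    have h5 : ζ - 1 ∣ a η₁.1 - a η₂.1 := by
      have e : a η₁.1 - a η₂.1 = (a η₁.1 - n (a η₁.1)) - (a η₂.1 - n (a η₂.1))
          - ((n (a η₂.1) - n (a η₁.1) : ℤ) : R) := by push_cast; ring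
      rw [e]
      exact dvd_sub (dvd_sub (hn _) (hn _)) h4
    exact Subtype.ext (hinj _ η₁.2 _ η₂.2 h5)
  have hbij : Function.Bijective f := by
    rw [Fintype.bijective_iff_injective_and_card]
    refine ⟨hf, ?_⟩
    rw [Fintype.card_coe, hζ.card_nthRootsFinset, ZMod.card]
  obtain ⟨η₀, hη₀⟩ := hbij.2 0
  have h6 : (p : ℤ) ∣ n (a η₀.1) := (ZMod.intCast_zmod_eq_zero_iff_dvd _ p).1 hη₀
  have h7 : ζ - 1 ∣ a η₀.1 := by
    have := (sub_one_dvd_intCast_iff hp hprime hassoc).2 h6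
    have := dvd_add (hn (a η₀.1)) this
    simpa using this
  have hη₀pow : η₀.1 ^ p = 1 := (mem_nthRootsFinset hppos 1).1 η₀.2
  have hη₀unit : IsUnit η₀.1 := IsUnit.of_pow_eq_one hη₀pow hp.ne_zero
  refine ⟨η₀.1 * y, (isCoprime_mul_unit_left_right hη₀unit x y).2 hxy, ?_, ?_⟩
  · rw [mul_pow, hη₀pow, one_mul]
  · rw [ha η₀.1 η₀.2, pow_two]
    exact mul_dvd_mul_left _ h7

/-- The solutions on which the descent runs. -/
def Sol (p : ℕ) (ζ : R) (m : ℕ) : Prop :=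
  ∃ x y z : R, ∃ ε : Rˣ, IsCoprime x y ∧ ¬ ζ - 1 ∣ z ∧
    x ^ p + y ^ p = ε * ((ζ - 1) ^ m * z) ^ p

lemma descent_of_sq_dvd [IsPrincipalIdealRing R] (hp : p.Prime) (hp2 : p ≠ 2)
    (hζ : IsPrimitiveRoot ζ p)
    (hprime : Prime (ζ - 1)) (hassoc : Associated (p : R) ((ζ - 1) ^ (p - 1)))
    (hint : ∀ ρ : R, ∃ n : ℤ, ζ - 1 ∣ ρ - n)
    (hkl : ∀ u : Rˣ, (∃ n : ℤ, (p : R) ∣ (u : R) - n) → ∃ v : Rˣ, u = v ^ p)
    {m : ℕ} (hm : 1 ≤ m) {x y z : R} {ε : Rˣ} (hxy : IsCoprime x y) (hz : ¬ ζ - 1 ∣ z)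
    (heq : x ^ p + y ^ p = ε * ((ζ - 1) ^ m * z) ^ p) (hsq : (ζ - 1) ^ 2 ∣ x + y) :
    2 ≤ m ∧ Sol p ζ (m - 1) := by
  classical
  have hppos : 0 < p := hp.pos
  have hp3 : 3 ≤ p := by
    have := hp.two_le; omega
  have hodd : Odd p := hp.odd_of_ne_two hp2
  have hπ0 : ζ - 1 ≠ 0 := hprime.ne_zero
  have hζp : ζ ^ p = 1 := hζ.pow_eq_one
  have hdvd0 : ζ - 1 ∣ x ^ p + y ^ p := by
    rw [heq]
    refine Dvd.dvd.mul_left (dvd_pow (Dvd.dvd.mul_right (dvd_pow_self _ (by omega)) _) hp.ne_zero) _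
  have hdiv := sub_one_dvd_add_mul hp hp2 hζ hprime hdvd0
  have h1mem : (1 : R) ∈ nthRootsFinset p (1 : R) := by
    rw [mem_nthRootsFinset hppos]; exact one_pow p
  have hy : ¬ ζ - 1 ∣ y := by
    refine not_sub_one_dvd_right hprime hxy ?_
    simpa using hdiv 1 h1mem
  have hex : ∀ η : R, ∃ a : R, η ∈ nthRootsFinset p (1 : R) → x + η * y = (ζ - 1) * a := by
    intro η
    by_cases hη : η ∈ nthRootsFinset p (1 : R)
    · obtain ⟨a, ha⟩ := hdiv η hη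
      exact ⟨a, fun _ => ha⟩
    · exact ⟨0, fun h => absurd h hη⟩
  choose a ha using hex
  -- `ζ - 1 ∣ a 1`
  have ha1 : ζ - 1 ∣ a 1 := by
    have h2 : (ζ - 1) * (ζ - 1) ∣ (ζ - 1) * a 1 := by
      rw [← ha 1 h1mem, one_mul, ← pow_two]; exact hsq
    exact (mul_dvd_mul_iff_left hπ0).1 h2
  -- differences
  have hdiff : ∀ η₁ ∈ nthRootsFinset p (1 : R), ∀ η₂ ∈ nthRootsFinset p (1 : R), η₁ ≠ η₂ →
      ∃ u : Rˣ, a η₁ - a η₂ = u * y ∧ η₂ * a η₁ - η₁ * a η₂ = - (u * x) := by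
    intro η₁ h₁ η₂ h₂ hne
    obtain ⟨u, hu⟩ := hζ.nthRootsFinset_pairwise_associated_sub_one_sub_of_prime hp h₁ h₂ hne
    refine ⟨u, ?_, ?_⟩
    · have e : (ζ - 1) * (a η₁ - a η₂) = (ζ - 1) * (u * y) := by
        rw [mul_sub, ← ha η₁ h₁, ← ha η₂ h₂, ← mul_assoc, hu]; ring
      exact mul_left_cancel₀ hπ0 e
    · have e : (ζ - 1) * (η₂ * a η₁ - η₁ * a η₂) = (ζ - 1) * (- (u * x)) := by
        have e1 : (ζ - 1) * (η₂ * a η₁ - η₁ * a η₂)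
            = η₂ * ((ζ - 1) * a η₁) - η₁ * ((ζ - 1) * a η₂) := by ring
        rw [e1, ← ha η₁ h₁, ← ha η₂ h₂, mul_neg, ← mul_assoc, hu]; ring
      exact mul_left_cancel₀ hπ0 e
  have hne1 : ∀ η ∈ nthRootsFinset p (1 : R), η ≠ 1 → ¬ ζ - 1 ∣ a η := by
    intro η hη hη1 hd
    obtain ⟨u, hu, -⟩ := hdiff η hη 1 h1mem hη1
    have h3 : ζ - 1 ∣ (u : R) * y := by
      rw [← hu]; exact dvd_sub hd ha1
    exact hy ((u.isUnit.dvd_mul_left).1 h3)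
  have hcop : ∀ η₁ ∈ nthRootsFinset p (1 : R), ∀ η₂ ∈ nthRootsFinset p (1 : R), η₁ ≠ η₂ →
      IsCoprime (a η₁) (a η₂) := by
    intro η₁ h₁ η₂ h₂ hne
    obtain ⟨u, hu1, hu2⟩ := hdiff η₁ h₁ η₂ h₂ hne
    obtain ⟨r, s, hrs⟩ := hxy
    refine ⟨- r * (↑u⁻¹ : Rˣ) * η₂ + s * (↑u⁻¹ : Rˣ), r * (↑u⁻¹ : Rˣ) * η₁ - s * (↑u⁻¹ : Rˣ), ?_⟩
    have e1 : ((↑u⁻¹ : Rˣ) : R) * (u : R) = 1 := by simp
    linear_combination (- r * (↑u⁻¹ : Rˣ)) * hu2 + (s * (↑u⁻¹ : Rˣ)) * hu1 + hrs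
      + (r * x + s * y) * e1
  -- the product
  have hprod : ∏ η ∈ nthRootsFinset p (1 : R), a η = ε * ((ζ - 1) ^ (m - 1) * z) ^ p := by
    have e1 : ∏ η ∈ nthRootsFinset p (1 : R), (x + η * y)
        = (ζ - 1) ^ p * ∏ η ∈ nthRootsFinset p (1 : R), a η := by
      rw [Finset.prod_congr rfl (fun η hη => ha η hη), Finset.prod_mul_distrib,
        Finset.prod_const, hζ.card_nthRootsFinset]
    rw [← hζ.pow_add_pow_eq_prod_add_mul x y hodd, heq] at e1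
    have e2 : (ε : R) * ((ζ - 1) ^ m * z) ^ p
        = (ζ - 1) ^ p * (ε * ((ζ - 1) ^ (m - 1) * z) ^ p) := by
      obtain ⟨m', rfl⟩ : ∃ m', m = m' + 1 := ⟨m - 1, by omega⟩
      simp only [Nat.add_sub_cancel]
      generalize ζ - 1 = π
      ring
    rw [e2] at e1
    exact (mul_left_cancel₀ (pow_ne_zero p hπ0) e1).symm
  set S := nthRootsFinset p (1 : R) with hS
  have hB : a 1 * ∏ η ∈ S.erase 1, a η = ε * ((ζ - 1) ^ (m - 1) * z) ^ p := by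
    rw [Finset.mul_prod_erase _ _ h1mem, hprod]
  have hBnd : ¬ ζ - 1 ∣ ∏ η ∈ S.erase 1, a η := by
    rw [hprime.dvd_finsetProd_iff]
    rintro ⟨η, hη, hd⟩
    exact hne1 η (Finset.mem_of_mem_erase hη) (Finset.ne_of_mem_erase hη) hd
  have hεz : ¬ ζ - 1 ∣ (ε : R) * z ^ p := by
    intro h
    rcases hprime.dvd_or_dvd h with h | h
    · exact hprime.not_isUnit (isUnit_of_dvd_unit h ε.isUnit)
    · exact hz (hprime.dvd_of_dvd_pow h)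
  have hm2 : 2 ≤ m := by
    by_contra hlt
    have hm1 : m = 1 := by omega
    subst hm1
    simp only [Nat.sub_self, pow_zero, one_mul] at hB
    exact hεz (by rw [← hB]; exact Dvd.dvd.mul_right ha1 _)
  refine ⟨hm2, ?_⟩
  have hpow : (ζ - 1) ^ ((m - 1) * p) ∣ a 1 := by
    refine hprime.pow_dvd_of_dvd_mul_right _ hBnd ?_
    rw [hB, mul_pow, ← pow_mul]
    exact Dvd.dvd.mul_left (Dvd.intro _ rfl) _
  obtain ⟨A', hA'⟩ := hpow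
  have hA'B : A' * ∏ η ∈ S.erase 1, a η = ε * z ^ p := by
    have : (ζ - 1) ^ ((m - 1) * p) * (A' * ∏ η ∈ S.erase 1, a η)
        = (ζ - 1) ^ ((m - 1) * p) * (ε * z ^ p) := by
      rw [← mul_assoc, ← hA', hB, mul_pow, ← pow_mul]; ring
    exact mul_left_cancel₀ (pow_ne_zero _ hπ0) this
  have hA'nd : ¬ ζ - 1 ∣ A' := by
    intro h
    exact hεz (by rw [← hA'B]; exact Dvd.dvd.mul_right h _)
  have hcopA' : IsCoprime A' (∏ η ∈ S.erase 1, a η) := by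
    have h1 : IsCoprime (a 1) (∏ η ∈ S.erase 1, a η) :=
      IsCoprime.prod_right (fun η hη => hcop 1 h1mem η (Finset.mem_of_mem_erase hη)
        (Finset.ne_of_mem_erase hη).symm)
    rw [hA'] at h1
    exact h1.of_mul_left_right
  obtain ⟨ρ₀, hρ₀⟩ : ∃ ρ₀, Associated (ρ₀ ^ p) A' := by
    refine exists_associated_pow_of_associated_pow_mul hcopA' (c := z) ?_
    rw [hA'B]; exact ⟨ε, by ring⟩
  have hpth : ∀ η ∈ S, ∃ ρ, Associated (ρ ^ p) (a η) := by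
    intro η hη
    have h1 : IsCoprime (a η) (∏ η' ∈ S.erase η, a η') :=
      IsCoprime.prod_right (fun η' hη' => hcop η hη η' (Finset.mem_of_mem_erase hη')
        (Finset.ne_of_mem_erase hη').symm)
    refine exists_associated_pow_of_associated_pow_mul h1 (c := (ζ - 1) ^ (m - 1) * z) ?_
    rw [Finset.mul_prod_erase _ _ hη, hprod]
    exact ⟨ε, by ring⟩
  have hζmem : ζ ∈ S := by rw [hS, mem_nthRootsFinset hppos]; exact hζp
  set ζ' := ζ ^ (p - 1) with hζ'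
  have hζζ' : ζ * ζ' = 1 := by rw [hζ', ← pow_succ', Nat.sub_add_cancel hppos, hζp]
  have hζ'mem : ζ' ∈ S := by
    rw [hS, mem_nthRootsFinset hppos, hζ', ← pow_mul, mul_comm, pow_mul, hζp, one_pow]
  have hζ'ne1 : ζ' ≠ 1 := hζ.pow_ne_one_of_pos_of_lt (by omega) (by omega)
  have hζneζ' : ζ ≠ ζ' := by
    intro h
    have := hζ.pow_inj (by omega : 1 < p) (by omega : p - 1 < p) (by rw [pow_one]; exact h)
    omega
  have hrel : a ζ + ζ * a ζ' = (1 + ζ) * a 1 := by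
    have e : (ζ - 1) * (a ζ + ζ * a ζ') = (ζ - 1) * ((1 + ζ) * a 1) := by
      have e1 : (ζ - 1) * (a ζ + ζ * a ζ') = (ζ - 1) * a ζ + ζ * ((ζ - 1) * a ζ') := by ring
      have e2 : (ζ - 1) * ((1 + ζ) * a 1) = (1 + ζ) * ((ζ - 1) * a 1) := by ring
      rw [e1, e2, ← ha ζ hζmem, ← ha ζ' hζ'mem, ← ha 1 h1mem]
      linear_combination y * hζζ'
    exact mul_left_cancel₀ hπ0 e
  obtain ⟨ρ₁, ε₁, hρ₁⟩ := hpth ζ hζmem
  obtain ⟨ρ₂, ε₂, hρ₂⟩ := hpth ζ' hζ'mem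
  obtain ⟨ε₀, hε₀⟩ := hρ₀
  have hunit2 : IsUnit (1 + ζ) := by
    have h2p : Nat.Coprime 2 p := (Nat.coprime_primes Nat.prime_two hp).2 (Ne.symm hp2)
    have := hζ.geom_sum_isUnit hp.two_le h2p
    simpa [Finset.sum_range_succ] using this
  obtain ⟨w, hw⟩ := hunit2
  obtain ⟨ζu, hζu⟩ := hζ.isUnit hp.ne_zero
  have hkey : ρ₁ ^ p + ((ζu * ε₂ * ε₁⁻¹ : Rˣ) : R) * ρ₂ ^ p
      = ((w * ε₀ * ε₁⁻¹ : Rˣ) : R) * ((ζ - 1) ^ (m - 1) * ρ₀) ^ p := by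
    have e1 : (ε₁ : R) * ((ε₁⁻¹ : Rˣ) : R) = 1 := by simp
    have h3 : ρ₁ ^ p * ε₁ + ζ * (ρ₂ ^ p * ε₂)
        = (1 + ζ) * ((ζ - 1) ^ ((m - 1) * p) * (ρ₀ ^ p * ε₀)) := by
      rw [hρ₁, hρ₂, hε₀, ← hA']; exact hrel
    simp only [Units.val_mul, hw, hζu]
    rw [mul_pow, ← pow_mul]
    linear_combination ((ε₁⁻¹ : Rˣ) : R) * h3 - ρ₁ ^ p * e1
  set η' : Rˣ := ζu * ε₂ * ε₁⁻¹ with hη'
  set ε' : Rˣ := w * ε₀ * ε₁⁻¹ with hε'
  have hpdvd : (p : R) ∣ ρ₁ ^ p + (η' : R) * ρ₂ ^ p := by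
    rw [hkey, mul_pow, ← pow_mul]
    refine Dvd.dvd.mul_left (Dvd.dvd.mul_right (hassoc.dvd.trans (pow_dvd_pow _ ?_)) _) _
    have h1 : 1 ≤ m - 1 := by omega
    calc p - 1 ≤ 1 * p := by omega
      _ ≤ (m - 1) * p := Nat.mul_le_mul_right p h1
  obtain ⟨n₁, t₁, ht₁⟩ := exists_int_pow_sub_dvd hp hassoc hint ρ₁
  obtain ⟨n₂, t₂, ht₂⟩ := exists_int_pow_sub_dvd hp hassoc hint ρ₂
  obtain ⟨t₃, ht₃⟩ := hpdvd
  have hρ₂nd : ¬ ζ - 1 ∣ ρ₂ := by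
    intro h
    refine hne1 ζ' hζ'mem hζ'ne1 ?_
    rw [← hρ₂]
    exact Dvd.dvd.mul_right (dvd_pow h hp.ne_zero) _
  have hπp : ζ - 1 ∣ (p : R) := (dvd_pow_self _ (by omega)).trans hassoc.symm.dvd
  have hn₂ : ¬ (p : ℤ) ∣ n₂ := by
    intro h
    have h1 := (sub_one_dvd_intCast_iff hp hprime hassoc).2 h
    have h2 : ζ - 1 ∣ ρ₂ ^ p := by
      have : ρ₂ ^ p = (p : R) * t₂ + n₂ := by rw [← ht₂]; ring
      rw [this]
      exact dvd_add (Dvd.dvd.mul_right hπp _) h1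
    exact hρ₂nd (hprime.dvd_of_dvd_pow h2)
  obtain ⟨r, s, hrs⟩ : IsCoprime (p : ℤ) n₂ :=
    (Nat.prime_iff_prime_int.1 hp).coprime_iff_not_dvd.2 hn₂
  have hrs' : (r : R) * p + s * n₂ = 1 := by exact_mod_cast congrArg (Int.cast : ℤ → R) hrs
  obtain ⟨v, hv⟩ := hkl η' ⟨-(s * n₁), η' * r + s * (t₃ - η' * t₂ - t₁), by
    push_cast
    linear_combination (-(η' : R)) * hrs' - (s * η') * ht₂ - s * ht₁ + s * ht₃⟩
  refine ⟨ρ₁, v * ρ₂, ρ₀, ε', ?_, ?_, ?_⟩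
  · have h1 : IsCoprime (a ζ) (a ζ') := hcop ζ hζmem ζ' hζ'mem hζneζ'
    rw [← hρ₁, ← hρ₂] at h1
    have h2 : IsCoprime (ρ₁ ^ p) (ρ₂ ^ p) := h1.of_mul_left_left.of_mul_right_left
    have h3 : IsCoprime ρ₁ ρ₂ := (IsCoprime.pow_iff hppos hppos).1 h2
    exact (isCoprime_mul_unit_left_right v.isUnit ρ₁ ρ₂).2 h3
  · intro h
    apply hA'nd
    rw [← hε₀]
    exact Dvd.dvd.mul_right (dvd_pow h hp.ne_zero) _
  · rw [mul_pow, ← Units.val_pow_eq_pow_val, ← hv, hkey]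

lemma Sol.descent [IsPrincipalIdealRing R] (hp : p.Prime) (hp2 : p ≠ 2)
    (hζ : IsPrimitiveRoot ζ p)
    (hprime : Prime (ζ - 1)) (hassoc : Associated (p : R) ((ζ - 1) ^ (p - 1)))
    (hint : ∀ ρ : R, ∃ n : ℤ, ζ - 1 ∣ ρ - n)
    (hkl : ∀ u : Rˣ, (∃ n : ℤ, (p : R) ∣ (u : R) - n) → ∃ v : Rˣ, u = v ^ p)
    {m : ℕ} (hm : 1 ≤ m) (h : Sol p ζ m) : 2 ≤ m ∧ Sol p ζ (m - 1) := by
  obtain ⟨x, y, z, ε, hxy, hz, heq⟩ := h
  have hdvd0 : ζ - 1 ∣ x ^ p + y ^ p := by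
    rw [heq]
    refine Dvd.dvd.mul_left (dvd_pow (Dvd.dvd.mul_right (dvd_pow_self _ (by omega)) _)
      hp.ne_zero) _
  obtain ⟨y', hxy', hy', hsq⟩ := exists_sq_dvd hp hp2 hζ hprime hassoc hint hxy hdvd0
  exact descent_of_sq_dvd hp hp2 hζ hprime hassoc hint hkl hm hxy' hz (by rw [hy', heq]) hsq

lemma not_sol [IsPrincipalIdealRing R] (hp : p.Prime) (hp2 : p ≠ 2)
    (hζ : IsPrimitiveRoot ζ p)
    (hprime : Prime (ζ - 1)) (hassoc : Associated (p : R) ((ζ - 1) ^ (p - 1)))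
    (hint : ∀ ρ : R, ∃ n : ℤ, ζ - 1 ∣ ρ - n)
    (hkl : ∀ u : Rˣ, (∃ n : ℤ, (p : R) ∣ (u : R) - n) → ∃ v : Rˣ, u = v ^ p) :
    ∀ m : ℕ, 1 ≤ m → ¬ Sol p ζ m := by
  intro m
  induction m with
  | zero => intro h; omega
  | succ k ih =>
    intro _ hsol
    obtain ⟨h2, hsol'⟩ := Sol.descent hp hp2 hζ hprime hassoc hint hkl (by omega) hsol
    simp only [Nat.add_sub_cancel] at hsol'
    exact ih (by omega) hsol'

/-- Abstract form of the second case: no solutions with `ζ - 1 ∣ z`. -/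
theorem caseII_abstract [IsPrincipalIdealRing R] (hp : p.Prime) (hp2 : p ≠ 2)
    (hζ : IsPrimitiveRoot ζ p)
    (hprime : Prime (ζ - 1)) (hassoc : Associated (p : R) ((ζ - 1) ^ (p - 1)))
    (hint : ∀ ρ : R, ∃ n : ℤ, ζ - 1 ∣ ρ - n)
    (hkl : ∀ u : Rˣ, (∃ n : ℤ, (p : R) ∣ (u : R) - n) → ∃ v : Rˣ, u = v ^ p)
    (x y z : R) (hxy : IsCoprime x y) (hz : z ≠ 0) (hdvd : ζ - 1 ∣ z) :
    x ^ p + y ^ p ≠ z ^ p := by
  intro heq
  obtain ⟨m, z', hz', hzz'⟩ := WfDvdMonoid.max_power_factor hz hprime.irreducible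
  have hm : 1 ≤ m := by
    by_contra h
    have hm0 : m = 0 := by omega
    subst hm0
    rw [pow_zero, one_mul] at hzz'
    exact hz' (hzz' ▸ hdvd)
  refine not_sol hp hp2 hζ hprime hassoc hint hkl m hm ⟨x, y, z', 1, hxy, hz', ?_⟩
  rw [heq, hzz', Units.val_one, one_mul]

end abstractDescent

section concrete

open NumberField

variable {p : ℕ} [hp : Fact p.Prime] {K : Type*} [Field K] [NumberField K]

include hp in
omit [NumberField K] in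
lemma exists_int_sub_one_dvd_sub [CharZero K] [IsCyclotomicExtension {p} ℚ K] {ζ : K}
    (hζ : IsPrimitiveRoot ζ p) (ρ : 𝓞 K) :
    ∃ n : ℤ, hζ.toInteger - 1 ∣ ρ - n := by
  have : NeZero p := ⟨hp.out.ne_zero⟩
  obtain ⟨f, rfl⟩ := hζ.integralPowerBasis.exists_eq_aeval' ρ
  rw [hζ.integralPowerBasis_gen]
  refine ⟨f.eval 1, ?_⟩
  have h := Polynomial.sub_dvd_eval_sub (hζ.toInteger) 1 (f.map (algebraMap ℤ (𝓞 K)))
  rw [Polynomial.eval_map, Polynomial.eval_map, ← aeval_def, ← aeval_def] at h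
  have e : aeval (1 : 𝓞 K) f = ((f.eval 1 : ℤ) : 𝓞 K) := by
    have := Polynomial.aeval_algebraMap_apply (𝓞 K) (1 : ℤ) f
    simpa using this
  rwa [e] at h

include hp in
theorem caseII [IsCyclotomicExtension {p} ℚ K] (hp2 : p ≠ 2) (hpid : IsPrincipalIdealRing (𝓞 K))
    (hkl : ∀ u : (𝓞 K)ˣ, (∃ n : ℤ, (p : 𝓞 K) ∣ (u : 𝓞 K) - n) → ∃ v : (𝓞 K)ˣ, u = v ^ p)
    (a b c : ℤ) (hc : c ≠ 0) (_ha : ¬ (p : ℤ) ∣ a) (_hb : ¬ (p : ℤ) ∣ b) (hpc : (p : ℤ) ∣ c)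
    (hab : IsCoprime a b) : a ^ p + b ^ p ≠ c ^ p := by
  have : NeZero p := ⟨hp.out.ne_zero⟩
  have hζ := IsCyclotomicExtension.zeta_spec p ℚ K
  intro heq
  have hassoc : Associated ((p : ℕ) : 𝓞 K) ((hζ.toInteger - 1) ^ (p - 1)) :=
    (IsCyclotomicExtension.Rat.associated_zeta_sub_one_pow_prime p hζ).symm
  have hdvd : hζ.toInteger - 1 ∣ ((c : ℤ) : 𝓞 K) := by
    obtain ⟨k, rfl⟩ := hpc
    push_cast
    exact Dvd.dvd.mul_right hζ.toInteger_sub_one_dvd_prime' _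
  refine caseII_abstract hp.out hp2 hζ.toInteger_isPrimitiveRoot hζ.zeta_sub_one_prime' hassoc
    (exists_int_sub_one_dvd_sub hζ) hkl (a : 𝓞 K) (b : 𝓞 K) (c : 𝓞 K) hab.intCast
    (by exact_mod_cast hc) hdvd ?_
  exact_mod_cast congrArg (Int.cast : ℤ → 𝓞 K) heq

end concrete

end Fermat.Agent.FLTSmall
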