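import Mathlib

set_option autoImplicit false

namespace Fermat.Agent.FLTSmall

open Finset

section Cyc

variable {R : Type*} [CommRing R]

/-- `cyc p y z = (y ^ p + z ^ p) / (y + z)` for odd `p`. -/
def cyc (p : ℕ) (y z : R) : R := ∑ i ∈ range p, y ^ i * (-z) ^ (p - 1 - i)

lemma cyc_mul {p : ℕ} (hp : Odd p) (y z : R) : cyc p y z * (y + z) = y ^ p + z ^ p := by
  have h := geom_sum₂_mul y (-z) p
  rw [Odd.neg_pow hp, sub_neg_eq_add, sub_neg_eq_add] at h
  exact h

lemma map_cyc {S : Type*} [CommRing S] (f : R →+* S) (p : ℕ) (y z : R) :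
    f (cyc p y z) = cyc p (f y) (f z) := by
  simp [cyc]

lemma cyc_of_add_eq_zero {p : ℕ} (hp : 0 < p) {y z : R} (h : y + z = 0) :
    cyc p y z = (p : R) * y ^ (p - 1) := by
  have hz : -z = y := by rw [neg_eq_iff_add_eq_zero, add_comm]; exact h
  unfold cyc
  rw [hz]
  have : ∀ i ∈ range p, y ^ i * y ^ (p - 1 - i) = y ^ (p - 1) := by
    intro i hi
    rw [← pow_add]
    congr 1
    have := mem_range.mp hi
    omega
  rw [sum_congr rfl this]
  simp

lemma cyc_zero_left {p : ℕ} (hp : 0 < p) (y : R) : cyc p 0 y = (-y) ^ (p - 1) := by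
  unfold cyc
  rw [sum_eq_single_of_mem 0 (mem_range.mpr hp)]
  · simp
  · intro i _ hi
    simp [zero_pow hi]

end Cyc

/-- The hypotheses on the auxiliary prime `q` in Sophie Germain's theorem. -/
structure SGAux (p q : ℕ) : Prop where
  no_sol : ∀ x y z : ZMod q, x ^ p + y ^ p + z ^ p = 0 → x = 0 ∨ y = 0 ∨ z = 0
  not_pow : ∀ t : ZMod q, t ^ p ≠ (p : ZMod q)


lemma isCoprime_add_cyc {p : ℕ} (hp : p.Prime) {y z : ℤ} (hyz : IsCoprime y z)
    (hpyz : ¬ (p : ℤ) ∣ y + z) : IsCoprime (y + z) (cyc p y z) := by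
  have hpZ : Prime (p : ℤ) := Nat.prime_iff_prime_int.mp hp
  apply isCoprime_of_prime_dvd
  · rintro ⟨h0, -⟩
    exact hpyz (h0 ▸ dvd_zero _)
  · intro r hr h1 h2
    have e1 : (Ideal.Quotient.mk (Ideal.span {r})) (y + z) = 0 :=
      (Ideal.Quotient.eq_zero_iff_dvd r _).mpr h1
    have e2 : (Ideal.Quotient.mk (Ideal.span {r})) (cyc p y z) = 0 :=
      (Ideal.Quotient.eq_zero_iff_dvd r _).mpr h2
    rw [map_cyc, cyc_of_add_eq_zero hp.pos (by rw [← map_add]; exact e1)] at e2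
    have e3 : r ∣ (p : ℤ) * y ^ (p - 1) := by
      rw [← Ideal.Quotient.eq_zero_iff_dvd]
      simpa using e2
    rcases hr.dvd_or_dvd e3 with h | h
    · have : (p : ℤ) ∣ r := ((hr.associated_of_dvd hpZ h).symm).dvd
      exact hpyz (this.trans h1)
    · have hy : r ∣ y := hr.dvd_of_dvd_pow h
      have hz : r ∣ z := (dvd_add_right hy).mp h1
      exact hr.not_isUnit (hyz.isUnit_of_dvd' hy hz)

lemma exists_pow_of_sum_eq_zero {p : ℕ} (hp : p.Prime) (hodd : Odd p) {x y z : ℤ}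
    (h : x ^ p + y ^ p + z ^ p = 0) (hyz : IsCoprime y z) (hx : ¬ (p : ℤ) ∣ x) :
    ∃ a α : ℤ, y + z = a ^ p ∧ cyc p y z = α ^ p := by
  have hpZ : Prime (p : ℤ) := Nat.prime_iff_prime_int.mp hp
  have hmul : (y + z) * cyc p y z = (-x) ^ p := by
    rw [mul_comm, cyc_mul hodd, Odd.neg_pow hodd]
    linarith
  have hpyz : ¬ (p : ℤ) ∣ y + z := by
    intro hd
    apply hx
    have : (p : ℤ) ∣ (-x) ^ p := hmul ▸ Dvd.dvd.mul_right hd _
    exact (dvd_neg.mp (hpZ.dvd_of_dvd_pow this))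
  obtain ⟨⟨a, ha⟩, ⟨α, hα⟩⟩ :=
    Int.eq_pow_of_mul_eq_pow_odd (isCoprime_add_cyc hp hyz hpyz) hodd hmul
  exact ⟨a, α, ha, hα⟩


lemma not_dvd_of_isCoprime {q : ℕ} (hq : q.Prime) {u v : ℤ} (huv : IsCoprime u v)
    (hu : (q : ℤ) ∣ u) (hv : (q : ℤ) ∣ v) : False :=
  (Nat.prime_iff_prime_int.mp hq).not_isUnit (huv.isUnit_of_dvd' hu hv)

/-- Core step of Sophie Germain's theorem: the auxiliary prime cannot divide `x`. -/
lemma sg_core {p q : ℕ} (hp : p.Prime) (hodd : Odd p) [Fact q.Prime] (haux : SGAux p q)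
    {x y z : ℤ} (h : x ^ p + y ^ p + z ^ p = 0)
    (hxy : IsCoprime x y) (hyz : IsCoprime y z) (hzx : IsCoprime z x)
    (hx : ¬ (p : ℤ) ∣ x) (hy : ¬ (p : ℤ) ∣ y) (hz : ¬ (p : ℤ) ∣ z)
    (hqx : (q : ℤ) ∣ x) : False := by
  have hq : q.Prime := Fact.out
  obtain ⟨a, α, ha, hα⟩ := exists_pow_of_sum_eq_zero hp hodd h hyz hx
  obtain ⟨b, -, hb, -⟩ :=
    exists_pow_of_sum_eq_zero hp hodd (x := y) (y := z) (z := x) (by linarith) hzx hy
  obtain ⟨c, γ, hc, hγ⟩ :=
    exists_pow_of_sum_eq_zero hp hodd (x := z) (y := x) (z := y) (by linarith) hxy hz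
  have hX : ((x : ℤ) : ZMod q) = 0 := (ZMod.intCast_zmod_eq_zero_iff_dvd x q).mpr hqx
  have hA : (y : ZMod q) + (z : ZMod q) = (a : ZMod q) ^ p := by
    have := congrArg (Int.cast : ℤ → ZMod q) ha
    simpa using this
  have hB : (z : ZMod q) = (b : ZMod q) ^ p := by
    have := congrArg (Int.cast : ℤ → ZMod q) hb
    simpa [hX] using this
  have hC : (y : ZMod q) = (c : ZMod q) ^ p := by
    have := congrArg (Int.cast : ℤ → ZMod q) hc
    simpa [hX] using this
  have hα' : cyc p (y : ZMod q) (z : ZMod q) = (α : ZMod q) ^ p := by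
    have := congrArg (Int.castRingHom (ZMod q)) hα
    rw [map_cyc] at this
    simpa using this
  have hγ' : cyc p (0 : ZMod q) (y : ZMod q) = (γ : ZMod q) ^ p := by
    have := congrArg (Int.castRingHom (ZMod q)) hγ
    rw [map_cyc] at this
    simpa [hX] using this
  have hsum : (b : ZMod q) ^ p + (c : ZMod q) ^ p + (-(a : ZMod q)) ^ p = 0 := by
    rw [Odd.neg_pow hodd, ← hB, ← hC, ← hA]
    ring
  have hY0 : (y : ZMod q) ≠ 0 := by
    intro h0
    exact not_dvd_of_isCoprime hq hxy hqx ((ZMod.intCast_zmod_eq_zero_iff_dvd y q).mp h0)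
  have hZ0 : (z : ZMod q) ≠ 0 := by
    intro h0
    exact not_dvd_of_isCoprime hq hzx ((ZMod.intCast_zmod_eq_zero_iff_dvd z q).mp h0) hqx
  rcases haux.no_sol _ _ _ hsum with hb0 | hc0 | ha0
  · apply hZ0
    rw [hB, hb0, zero_pow hp.ne_zero]
  · apply hY0
    rw [hC, hc0, zero_pow hp.ne_zero]
  · have ha0' : (a : ZMod q) = 0 := neg_eq_zero.mp ha0
    have hYZ : (y : ZMod q) + (z : ZMod q) = 0 := by
      rw [hA, ha0', zero_pow hp.ne_zero]
    rw [cyc_of_add_eq_zero hp.pos hYZ] at hα'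
    rw [cyc_zero_left hp.pos, Even.neg_pow (hp.even_sub_one (by
      rintro rfl; exact absurd hodd (by decide)))] at hγ'
    have hγ0 : (γ : ZMod q) ≠ 0 := by
      intro h0
      rw [h0, zero_pow hp.ne_zero] at hγ'
      exact hY0 (pow_eq_zero_iff (by
        have := hp.two_le; omega) |>.mp hγ')
    apply haux.not_pow ((α : ZMod q) / (γ : ZMod q))
    rw [div_pow, ← hα', ← hγ']
    field_simp

/-- **Sophie Germain's theorem**, with an auxiliary prime `q` satisfying `SGAux p q`. -/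
theorem sophie_germain {p q : ℕ} (hp : p.Prime) (hodd : Odd p) [Fact q.Prime]
    (haux : SGAux p q) {x y z : ℤ} (h : x ^ p + y ^ p + z ^ p = 0)
    (hxy : IsCoprime x y) (hyz : IsCoprime y z) (hzx : IsCoprime z x) :
    (p : ℤ) ∣ x * y * z := by
  by_contra hndvd
  have hpZ : Prime (p : ℤ) := Nat.prime_iff_prime_int.mp hp
  have hx : ¬ (p : ℤ) ∣ x := fun hd => hndvd ((hd.mul_right y).mul_right z)
  have hy : ¬ (p : ℤ) ∣ y := fun hd => hndvd ((hd.mul_left x).mul_right z)
  have hz : ¬ (p : ℤ) ∣ z := fun hd => hndvd (hd.mul_left (x * y))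
  have hcast : (x : ZMod q) ^ p + (y : ZMod q) ^ p + (z : ZMod q) ^ p = 0 := by
    have := congrArg (Int.cast : ℤ → ZMod q) h
    simpa using this
  rcases haux.no_sol _ _ _ hcast with h0 | h0 | h0
  · exact sg_core hp hodd haux h hxy hyz hzx hx hy hz
      ((ZMod.intCast_zmod_eq_zero_iff_dvd x q).mp h0)
  · exact sg_core hp hodd haux (x := y) (y := z) (z := x) (by linarith) hyz hzx hxy hy hz hx
      ((ZMod.intCast_zmod_eq_zero_iff_dvd y q).mp h0)
  · exact sg_core hp hodd haux (x := z) (y := x) (z := y) (by linarith) hzx hxy hyz hz hx hy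
      ((ZMod.intCast_zmod_eq_zero_iff_dvd z q).mp h0)

/-- Case I in the form `a ^ p + b ^ p = c ^ p`. -/
theorem sophie_germain' {p q : ℕ} (hp : p.Prime) (hodd : Odd p) [Fact q.Prime]
    (haux : SGAux p q) {a b c : ℤ} (h : a ^ p + b ^ p = c ^ p)
    (hab : IsCoprime a b) (hbc : IsCoprime b c) (hca : IsCoprime c a) :
    (p : ℤ) ∣ a * b * c := by
  have h' : a ^ p + b ^ p + (-c) ^ p = 0 := by
    rw [Odd.neg_pow hodd]; linarith
  have := sophie_germain hp hodd haux h' hab hbc.neg_right hca.neg_left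
  simpa using this


/-- A convenient criterion for `SGAux p q` when `q = k * p + 1`: the `p`-th powers in `ZMod q`
are `k`-th roots of unity. -/
lemma sgAux_of_roots {p q k : ℕ} [Fact q.Prime] (hq : q = k * p + 1) (hp : 0 < p)
    (h1 : ∀ a b c : ZMod q, a ^ k = 1 → b ^ k = 1 → c ^ k = 1 → a + b + c ≠ 0)
    (h2 : (p : ZMod q) ^ k ≠ 1) : SGAux p q := by
  have hqp : q.Prime := Fact.out
  have hroot : ∀ t : ZMod q, t ≠ 0 → (t ^ p) ^ k = 1 := by
    intro t ht
    rw [← pow_mul, mul_comm]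
    have := ZMod.pow_card_sub_one_eq_one ht
    have e : q - 1 = k * p := by omega
    rwa [e] at this
  have hk : k ≠ 0 := by
    rintro rfl
    simp at hq
    exact hqp.ne_one hq
  refine ⟨?_, ?_⟩
  · intro x y z h
    by_contra hne
    push Not at hne
    exact h1 _ _ _ (hroot x hne.1) (hroot y hne.2.1) (hroot z hne.2.2) h
  · intro t ht
    have hp0 : (p : ZMod q) ≠ 0 := by
      intro h0
      have hdvd : q ∣ p := (ZMod.natCast_eq_zero_iff p q).mp h0
      have hle : q ≤ p := Nat.le_of_dvd hp hdvd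
      have : p ≤ k * p := Nat.le_mul_of_pos_left p (Nat.pos_of_ne_zero hk)
      omega
    have ht0 : t ≠ 0 := by
      rintro rfl
      rw [zero_pow hp.ne'] at ht
      exact hp0 ht.symm
    exact h2 (ht ▸ hroot t ht0)

/-- Version of `sgAux_of_roots` with hypotheses about natural numbers, suitable for `decide`. -/
lemma sgAux_of_roots_nat {p q k : ℕ} [Fact q.Prime] (hq : q = k * p + 1) (hp : 0 < p)
    (h1 : ∀ a < q, a ^ k % q = 1 → ∀ b < q, b ^ k % q = 1 → ∀ c < q, c ^ k % q = 1 →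
      (a + b + c) % q ≠ 0)
    (h2 : p ^ k % q ≠ 1) : SGAux p q := by
  have hqp : q.Prime := Fact.out
  have hq1 : 1 % q = 1 := Nat.mod_eq_of_lt hqp.one_lt
  have key : ∀ A : ZMod q, A ^ k = 1 → A.val ^ k % q = 1 := by
    intro A hA
    have h : ((A.val ^ k : ℕ) : ZMod q) = ((1 : ℕ) : ZMod q) := by
      rw [Nat.cast_pow, ZMod.natCast_zmod_val, hA, Nat.cast_one]
    rw [ZMod.natCast_eq_natCast_iff'] at h
    rw [h, hq1]
  refine sgAux_of_roots hq hp ?_ ?_
  · intro A B C hA hB hC hsum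
    refine h1 A.val (ZMod.val_lt A) (key A hA) B.val (ZMod.val_lt B) (key B hB) C.val
      (ZMod.val_lt C) (key C hC) ?_
    have h : ((A.val + B.val + C.val : ℕ) : ZMod q) = ((0 : ℕ) : ZMod q) := by
      push_cast
      rw [ZMod.natCast_zmod_val, ZMod.natCast_zmod_val, ZMod.natCast_zmod_val, hsum]
    rw [ZMod.natCast_eq_natCast_iff'] at h
    rw [h, Nat.zero_mod]
  · intro h
    apply h2
    have h' : ((p ^ k : ℕ) : ZMod q) = ((1 : ℕ) : ZMod q) := by
      rw [Nat.cast_pow, h, Nat.cast_one]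
    rw [ZMod.natCast_eq_natCast_iff'] at h'
    rw [h', hq1]

/-- Boolean certificate for the first hypothesis of `sgAux_of_roots_nat`. -/
def sgCheck (q k : ℕ) : Bool :=
  (List.range q).all fun a => a ^ k % q != 1 ||
    (List.range q).all fun b => b ^ k % q != 1 ||
      (List.range q).all fun c => c ^ k % q != 1 || (a + b + c) % q != 0

lemma sgCheck_spec {q k : ℕ} (h : sgCheck q k = true) :
    ∀ a < q, a ^ k % q = 1 → ∀ b < q, b ^ k % q = 1 → ∀ c < q, c ^ k % q = 1 →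
      (a + b + c) % q ≠ 0 := by
  intro a ha ha1 b hb hb1 c hc hc1
  simp only [sgCheck, List.all_eq_true, List.mem_range, Bool.or_eq_true, bne_iff_ne, ne_eq] at h
  rcases h a ha with h | h
  · exact absurd ha1 h
  rcases h b hb with h | h
  · exact absurd hb1 h
  rcases h c hc with h | h
  · exact absurd hc1 h
  exact h

instance fact_prime_eleven : Fact (Nat.Prime 11) := ⟨by norm_num⟩
instance fact_prime_twentyNine : Fact (Nat.Prime 29) := ⟨by norm_num⟩
instance fact_prime_twentyThree : Fact (Nat.Prime 23) := ⟨by norm_num⟩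
instance fact_prime_fiftyThree : Fact (Nat.Prime 53) := ⟨by norm_num⟩

lemma sgAux_5_11 : SGAux 5 11 :=
  sgAux_of_roots_nat (k := 2) (by norm_num) (by norm_num) (sgCheck_spec (by decide)) (by decide)

lemma sgAux_7_29 : SGAux 7 29 :=
  sgAux_of_roots_nat (k := 4) (by norm_num) (by norm_num) (sgCheck_spec (by decide)) (by decide)

lemma sgAux_11_23 : SGAux 11 23 :=
  sgAux_of_roots_nat (k := 2) (by norm_num) (by norm_num) (sgCheck_spec (by decide)) (by decide)

lemma sgAux_13_53 : SGAux 13 53 :=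
  sgAux_of_roots_nat (k := 4) (by norm_num) (by norm_num) (sgCheck_spec (by decide)) (by decide)

/-- Case I of Fermat's Last Theorem for the exponents `5`, `7`, `11`, `13`. -/
theorem caseI_small {p : ℕ} (hp : p = 5 ∨ p = 7 ∨ p = 11 ∨ p = 13) {a b c : ℤ}
    (h : a ^ p + b ^ p = c ^ p)
    (hab : IsCoprime a b) (hbc : IsCoprime b c) (hca : IsCoprime c a) :
    (p : ℤ) ∣ a * b * c := by
  rcases hp with rfl | rfl | rfl | rfl
  · exact sophie_germain' (by norm_num) (by decide) sgAux_5_11 h hab hbc hca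
  · exact sophie_germain' (by norm_num) (by decide) sgAux_7_29 h hab hbc hca
  · exact sophie_germain' (by norm_num) (by decide) sgAux_11_23 h hab hbc hca
  · exact sophie_germain' (by norm_num) (by decide) sgAux_13_53 h hab hbc hca

end Fermat.Agent.FLTSmall
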