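import Mathlib
import Fermat.Prelude.Def_FLTPrelim_FreyPackage
import Fermat.Prelude.Def_FLTPrelim_CofixedLine
import Fermat.Agent.FLTSmall.SophieGermain

set_option autoImplicit false

namespace Fermat.Agent.FLTSmall

/-- From `a ^ n + b ^ n = c ^ n` and `IsCoprime a b` the other two coprimality statements follow. -/
lemma isCoprime_of_add_pow_eq {n : ℕ} (hn : n ≠ 0) {a b c : ℤ} (h : a ^ n + b ^ n = c ^ n)
    (hab : IsCoprime a b) : IsCoprime b c ∧ IsCoprime c a := by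
  have hn' : 0 < n := Nat.pos_of_ne_zero hn
  constructor
  · rw [← IsCoprime.pow_iff hn' hn', ← h]
    have h1 : IsCoprime (b ^ n) (a ^ n) := (IsCoprime.pow_iff hn' hn').mpr hab.symm
    simpa using h1.add_mul_left_right 1
  · rw [← IsCoprime.pow_iff hn' hn', ← h]
    have h1 : IsCoprime (b ^ n) (a ^ n) := (IsCoprime.pow_iff hn' hn').mpr hab.symm
    have h2 : IsCoprime (b ^ n + a ^ n * 1) (a ^ n) := h1.add_mul_left_left 1
    rw [mul_one, add_comm] at h2
    exact h2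

/-- If `p ∣ c` in a coprime solution of `a ^ n + b ^ n = c ^ n` then `p ∤ a` and `p ∤ b`. -/
lemma not_dvd_of_dvd_of_isCoprime {p : ℤ} (hp : Prime p) {u v : ℤ} (huv : IsCoprime u v)
    (hu : p ∣ u) : ¬ p ∣ v := fun hv => hp.not_isUnit (huv.isUnit_of_dvd' hu hv)

/-- Reduction of Fermat's Last Theorem for an odd prime exponent `p` to the two classical cases,
generalising `fermatLastTheoremThree_of_three_dvd_only_c`. -/
theorem fermatLastTheoremFor_of_cases (p : ℕ) [hpF : Fact p.Prime] (hp2 : p ≠ 2)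
    (h1 : ∀ a b c : ℤ, IsCoprime a b → a ^ p + b ^ p = c ^ p → (p : ℤ) ∣ a * b * c)
    (h2 : ∀ a b c : ℤ, c ≠ 0 → ¬ (p : ℤ) ∣ a → ¬ (p : ℤ) ∣ b → (p : ℤ) ∣ c → IsCoprime a b →
      a ^ p + b ^ p ≠ c ^ p) : FermatLastTheoremFor p := by
  have hp : p.Prime := hpF.out
  have hodd : Odd p := hp.odd_of_ne_two hp2
  have hpZ : Prime (p : ℤ) := Nat.prime_iff_prime_int.mp hp
  rw [fermatLastTheoremFor_iff_int]
  refine fermatLastTheoremWith_of_fermatLastTheoremWith_coprime (fun a b c ha hb hc Hgcd hF ↦ ?_)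
  have hF0 : a ^ p + b ^ p + (-c) ^ p = 0 := by rw [hodd.neg_pow]; linarith
  have hab : IsCoprime a b := by
    refine isCoprime_of_gcd_eq_one_of_FLT ?_ hF0
    simp only [← Hgcd, Finset.gcd_insert, Finset.gcd_singleton, id_eq, ← Int.abs_eq_normalize,
      abs_neg]
  obtain ⟨hbc, hca⟩ := isCoprime_of_add_pow_eq hp.ne_zero hF hab
  have hdvd := h1 a b c hab hF
  rw [hpZ.dvd_mul, hpZ.dvd_mul] at hdvd
  rcases hdvd with (hpa | hpb) | hpc
  · -- `p ∣ a`: use `c ^ p + (-b) ^ p = a ^ p`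
    refine h2 c (-b) a ha (not_dvd_of_dvd_of_isCoprime hpZ hca.symm hpa) ?_ hpa hbc.symm.neg_right ?_
    · rw [dvd_neg]; exact not_dvd_of_dvd_of_isCoprime hpZ hab hpa
    · rw [hodd.neg_pow]; linarith
  · -- `p ∣ b`: use `c ^ p + (-a) ^ p = b ^ p`
    refine h2 c (-a) b hb (not_dvd_of_dvd_of_isCoprime hpZ hbc hpb) ?_ hpb hca.neg_right ?_
    · rw [dvd_neg]; exact not_dvd_of_dvd_of_isCoprime hpZ hab.symm hpb
    · rw [hodd.neg_pow]; linarith
  · exact h2 a b c hc (not_dvd_of_dvd_of_isCoprime hpZ hca hpc)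
      (not_dvd_of_dvd_of_isCoprime hpZ hbc.symm hpc) hpc hab hF

/-- Case I in the shape used by `fermatLastTheoremFor_of_cases`. -/
theorem caseI_small' {p : ℕ} (hp : p = 5 ∨ p = 7 ∨ p = 11 ∨ p = 13) :
    ∀ a b c : ℤ, IsCoprime a b → a ^ p + b ^ p = c ^ p → (p : ℤ) ∣ a * b * c := by
  intro a b c hab h
  have hp0 : p ≠ 0 := by rcases hp with rfl | rfl | rfl | rfl <;> norm_num
  obtain ⟨hbc, hca⟩ := isCoprime_of_add_pow_eq hp0 h hab
  exact caseI_small hp h hab hbc hca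

/-- For `p ∈ {5, 7, 11, 13}`, Fermat's Last Theorem for exponent `p` follows from case II. -/
theorem fermatLastTheoremFor_of_caseII {p : ℕ} [Fact p.Prime]
    (hp : p = 5 ∨ p = 7 ∨ p = 11 ∨ p = 13)
    (h2 : ∀ a b c : ℤ, c ≠ 0 → ¬ (p : ℤ) ∣ a → ¬ (p : ℤ) ∣ b → (p : ℤ) ∣ c → IsCoprime a b →
      a ^ p + b ^ p ≠ c ^ p) : FermatLastTheoremFor p :=
  fermatLastTheoremFor_of_cases p (by rcases hp with rfl | rfl | rfl | rfl <;> norm_num)
    (caseI_small' hp) h2

/-- A Frey package contradicts Fermat's Last Theorem for its exponent. -/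
theorem no_freyPackage_of_flt (P : FreyPackage) (h : FermatLastTheoremFor P.p) : False :=
  fermatLastTheoremFor_iff_int.mp h P.a P.b P.c P.ha0 P.hb0 P.hc0 P.hFLT

/-- A Frey package contradicts case II of Fermat's Last Theorem for `p ∈ {5, 7, 11, 13}`. -/
theorem no_freyPackage_of_caseII (P : FreyPackage)
    (hp : P.p = 5 ∨ P.p = 7 ∨ P.p = 11 ∨ P.p = 13)
    (h2 : ∀ a b c : ℤ, c ≠ 0 → ¬ (P.p : ℤ) ∣ a → ¬ (P.p : ℤ) ∣ b → (P.p : ℤ) ∣ c → IsCoprime a b →
      a ^ P.p + b ^ P.p ≠ c ^ P.p) : False :=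
  haveI : Fact P.p.Prime := ⟨P.pp⟩
  no_freyPackage_of_flt P (fermatLastTheoremFor_of_caseII hp h2)


open WeierstrassCurve.Affine.Point in
/-- Statement `S10` from Fermat's Last Theorem for the exponents `5`, `7`, `13`. -/
theorem s10_of_flt (h5 : FermatLastTheoremFor 5) (h7 : FermatLastTheoremFor 7)
    (h13 : FermatLastTheoremFor 13) (P : FreyPackage) (hp : P.p = 5 ∨ P.p = 7 ∨ P.p = 13) :
    ¬ HasGaloisStableCofixedLine (K := AlgebraicClosure ℚ) ℚ P.freyCurve P.p := by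
  refine (no_freyPackage_of_flt P ?_).elim
  rcases hp with h | h | h <;> rw [h] <;> assumption

open WeierstrassCurve.Affine.Point in
/-- Statement `S11` from Fermat's Last Theorem for the exponent `11`. -/
theorem s11_of_flt (h11 : FermatLastTheoremFor 11) (P : FreyPackage) (hp : P.p = 11) :
    ¬ HasGaloisStableCofixedLine (K := AlgebraicClosure ℚ) ℚ P.freyCurve P.p := by
  refine (no_freyPackage_of_flt P ?_).elim
  rw [hp]; exact h11

end Fermat.Agent.FLTSmall
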