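import Mathlib

set_option autoImplicit false

namespace Fermat.Agent.FLTSmall.KL

open Module

section abstractCore

variable {E : Type*} [CommGroup E] {p : ℕ} [Fact p.Prime] {m : ℕ}
  {W : Type*} [AddCommGroup W] [Module (ZMod p) W]

/-- `ℤ`-scalar multiplication on a `ZMod p`-module factors through the cast. -/
theorem zsmul_eq_intCast_smul (c : ℤ) (w : W) : c • w = ((c : ZMod p)) • w := by
  rw [Int.cast_smul_eq_zsmul]

theorem map_prod_zpow_mul_pow (L : E →* Multiplicative W) (t : Fin m → E) (c : Fin m → ℤ) (v : E) :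
    (L ((∏ j, t j ^ c j) * v ^ p)).toAdd = ∑ j, (c j : ZMod p) • (L (t j)).toAdd := by
  have hp : (L (v ^ p)).toAdd = 0 := by
    rw [map_pow, toAdd_pow]
    have : ((p : ZMod p)) • (L v).toAdd = 0 := by rw [ZMod.natCast_self, zero_smul]
    rwa [Nat.cast_smul_eq_nsmul] at this
  rw [map_mul, toAdd_mul, hp, add_zero, map_prod, toAdd_prod]
  refine Finset.sum_congr rfl fun j _ => ?_
  rw [map_zpow, toAdd_zpow, zsmul_eq_intCast_smul (p := p)]

/-- Abstract core of Kummer's lemma: if `E` is generated modulo `p`-th powers by `m` elements and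
a homomorphism `L` to an `𝔽_p`-vector space is independent on `m` elements, then `ker L ⊆ E ^ p`. -/
theorem exists_pow_eq_of_map_eq_one
    (L : E →* Multiplicative W) (t : Fin m → E)
    (ht : ∀ u : E, ∃ (c : Fin m → ℤ) (v : E), u = (∏ j, t j ^ c j) * v ^ p)
    (y : Fin m → E)
    (hy : LinearIndependent (ZMod p) (fun i => (L (y i)).toAdd))
    (u : E) (hu : L u = 1) : ∃ v : E, u = v ^ p := by
  classical
  set a : Fin m → W := fun j => (L (t j)).toAdd with ha
  set b : Fin m → W := fun i => (L (y i)).toAdd with hb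
  -- every `b i` lies in the span of the `a j`
  have hmem : ∀ i, b i ∈ Submodule.span (ZMod p) (Set.range a) := by
    intro i
    obtain ⟨c, v, hcv⟩ := ht (y i)
    have : b i = ∑ j, (c j : ZMod p) • a j := by
      simp only [hb, ha]
      rw [hcv, map_prod_zpow_mul_pow (p := p)]
    rw [this]
    exact Submodule.sum_mem _ fun j _ =>
      Submodule.smul_mem _ _ (Submodule.subset_span ⟨j, rfl⟩)
  have hle : Submodule.span (ZMod p) (Set.range b) ≤ Submodule.span (ZMod p) (Set.range a) := by
    rw [Submodule.span_le]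
    rintro _ ⟨i, rfl⟩
    exact hmem i
  have h1 : finrank (ZMod p) (Submodule.span (ZMod p) (Set.range b)) = Fintype.card (Fin m) :=
    finrank_span_eq_card hy
  have h2 : finrank (ZMod p) (Submodule.span (ZMod p) (Set.range a)) ≤ Fintype.card (Fin m) :=
    finrank_range_le_card a
  have : FiniteDimensional (ZMod p) (Submodule.span (ZMod p) (Set.range a)) :=
    FiniteDimensional.span_of_finite (ZMod p) (Set.finite_range a)
  have h3 : finrank (ZMod p) (Submodule.span (ZMod p) (Set.range b)) ≤
      finrank (ZMod p) (Submodule.span (ZMod p) (Set.range a)) :=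
    Submodule.finrank_mono hle
  have hai : LinearIndependent (ZMod p) a := by
    rw [linearIndependent_iff_card_eq_finrank_span]
    have : Set.finrank (ZMod p) (Set.range a) =
        finrank (ZMod p) (Submodule.span (ZMod p) (Set.range a)) := rfl
    rw [this]
    omega
  obtain ⟨c, v, hcv⟩ := ht u
  have hsum : ∑ j, (c j : ZMod p) • a j = 0 := by
    have := map_prod_zpow_mul_pow (p := p) L t c v
    rw [← hcv, hu] at this
    simpa [ha] using this.symm
  have hc : ∀ j, ((c j : ℤ) : ZMod p) = 0 := by
    have := Fintype.linearIndependent_iff.mp hai (fun j => (c j : ZMod p)) hsum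
    exact this
  have hdvd : ∀ j, (p : ℤ) ∣ c j := fun j =>
    (ZMod.intCast_zmod_eq_zero_iff_dvd (c j) p).mp (hc j)
  choose d hd using hdvd
  refine ⟨(∏ j, t j ^ d j) * v, ?_⟩
  rw [mul_pow, ← Finset.prod_pow, hcv]
  congr 1
  refine Finset.prod_congr rfl fun j _ => ?_
  rw [hd j, mul_comm, zpow_mul, zpow_natCast]

end abstractCore

end Fermat.Agent.FLTSmall.KL
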