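import Mathlib
import Fermat.Agent.FLTSmall.KLAbstract

set_option autoImplicit false

namespace Fermat.Agent.FLTSmall.KL

open Polynomial NumberField TrivSqZeroExt

section target

variable (p : ℕ) [hp : Fact p.Prime]

/-- The truncated polynomial ring `𝔽_p[X] / (X - 1)^(p - 2)`. -/
abbrev Rq : Type := (ZMod p)[X] ⧸ Ideal.span {((X : (ZMod p)[X]) - 1) ^ (p - 2)}

/-- Dual numbers over `Rq p`. -/
abbrev Sq : Type := TrivSqZeroExt (Rq p) (Rq p)

/-- The class of `X` in `Rq p`. -/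
noncomputable def xbar : Rq p := Ideal.Quotient.mk _ X

/-- The element `X + ε` of the dual numbers. -/
noncomputable def xi : Sq p := inl (xbar p) + inr 1

theorem xbar_sub_one_pow : (xbar p - 1) ^ (p - 2) = 0 := by
  rw [xbar, ← map_one (Ideal.Quotient.mk _), ← map_sub, ← map_pow,
    Ideal.Quotient.eq_zero_iff_mem]
  exact Ideal.subset_span rfl

theorem xi_sub_one_pow : (xi p - 1) ^ (p - 1) = 0 := by
  have h2 : 2 ≤ p := hp.out.two_le
  have hpred : (p - 1).pred = p - 2 := by simp [Nat.pred_eq_sub_one]; omega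
  have hfst : (xi p - 1).fst = xbar p - 1 := by simp [xi]
  have hsnd : (xi p - 1).snd = 1 := by simp [xi]
  refine TrivSqZeroExt.ext ?_ ?_
  · rw [fst_pow, hfst, fst_zero]
    have : p - 1 = (p - 2) + 1 := by omega
    rw [this, pow_succ, xbar_sub_one_pow, zero_mul]
  · rw [snd_pow, hfst, hsnd, hpred, xbar_sub_one_pow, snd_zero]
    simp

theorem aeval_xi_cyclotomic : aeval (xi p) (cyclotomic p ℤ) = 0 := by
  have h1 : cyclotomic p (ZMod p) = (X - 1) ^ (p - 1) := by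
    have := cyclotomic_mul_prime_pow_eq (ZMod p) (p := p) (m := 1) hp.out.not_dvd_one
      (k := 1) one_pos
    simpa [cyclotomic_one] using this
  have h2 : aeval (xi p) (cyclotomic p (ZMod p)) = 0 := by
    rw [h1, map_pow, map_sub, aeval_X, map_one, xi_sub_one_pow]
  rw [← map_cyclotomic_int p (ZMod p)] at h2
  rw [← h2]
  exact (aeval_map_algebraMap (ZMod p) (xi p) (cyclotomic p ℤ)).symm

theorem natCast_self_Sq : ((p : ℕ) : Sq p) = 0 := by
  have : ((p : ℕ) : Sq p) = algebraMap (ZMod p) (Sq p) ((p : ℕ) : ZMod p) := by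
    rw [map_natCast]
  rw [this, ZMod.natCast_self, map_zero]

end target

section Phi

variable {p : ℕ} [hp : Fact p.Prime] {K : Type*} [Field K] [NumberField K]
  [IsCyclotomicExtension {p} ℚ K] {ζ : K} (hζ : IsPrimitiveRoot ζ p)

/-- The ring homomorphism `𝓞 K → 𝔽_p[X]/(X-1)^(p-2) [ε]` sending `ζ` to `X + ε`. -/
noncomputable def Phi : 𝓞 K →ₐ[ℤ] Sq p :=
  hζ.integralPowerBasis.lift (xi p) (by
    have h1 : minpoly ℤ hζ.integralPowerBasis.gen = cyclotomic p ℤ := by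
      rw [IsPrimitiveRoot.integralPowerBasis_gen,
        cyclotomic_eq_minpoly hζ hp.out.pos]
      exact (NumberField.RingOfIntegers.minpoly_coe hζ.toInteger).symm
    rw [h1]
    exact aeval_xi_cyclotomic p)

theorem Phi_zeta : Phi hζ hζ.toInteger = xi p := by
  have h := congrArg (Phi hζ) (IsPrimitiveRoot.integralPowerBasis_gen hζ).symm
  rw [h]
  exact hζ.integralPowerBasis.lift_gen (xi p) _

/-- If `u ≡ a mod p` with `a` a rational integer, the `ε`-component of `Phi u` vanishes. -/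
theorem snd_Phi_eq_zero_of_dvd (u : 𝓞 K) (a : ℤ) (h : (p : 𝓞 K) ∣ u - (a : 𝓞 K)) :
    (Phi hζ u).snd = 0 := by
  obtain ⟨w, hw⟩ := h
  have hu : u = (a : 𝓞 K) + (p : 𝓞 K) * w := by rw [← hw]; ring
  rw [hu, map_add, map_mul, map_intCast, map_natCast, natCast_self_Sq, zero_mul, add_zero,
    snd_intCast]

/-- The logarithmic derivative `(𝓞 K)ˣ → 𝔽_p[X]/(X-1)^(p-2)`. -/
noncomputable def dlog : (𝓞 K)ˣ →* Multiplicative (Rq p) where
  toFun u := Multiplicative.ofAdd ((Phi hζ (u : 𝓞 K)).snd * (Phi hζ ((u⁻¹ : (𝓞 K)ˣ) : 𝓞 K)).fst)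
  map_one' := by
    simp
  map_mul' u v := by
    rw [← ofAdd_add]
    congr 1
    have hu : (Phi hζ (u : 𝓞 K)).fst * (Phi hζ ((u⁻¹ : (𝓞 K)ˣ) : 𝓞 K)).fst = 1 := by
      rw [← fst_mul, ← map_mul, ← Units.val_mul, mul_inv_cancel, Units.val_one, map_one, fst_one]
    have hv : (Phi hζ (v : 𝓞 K)).fst * (Phi hζ ((v⁻¹ : (𝓞 K)ˣ) : 𝓞 K)).fst = 1 := by
      rw [← fst_mul, ← map_mul, ← Units.val_mul, mul_inv_cancel, Units.val_one, map_one, fst_one]
    rw [mul_inv, Units.val_mul, Units.val_mul, map_mul, map_mul, snd_mul, fst_mul]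
    simp only [smul_eq_mul, MulOpposite.smul_eq_mul_unop, MulOpposite.unop_op]
    linear_combination
      ((Phi hζ (v : 𝓞 K)).snd * (Phi hζ ((v⁻¹ : (𝓞 K)ˣ) : 𝓞 K)).fst) * hu +
      ((Phi hζ (u : 𝓞 K)).snd * (Phi hζ ((u⁻¹ : (𝓞 K)ˣ) : 𝓞 K)).fst) * hv

theorem dlog_apply (u : (𝓞 K)ˣ) :
    (dlog hζ u).toAdd = (Phi hζ (u : 𝓞 K)).snd * (Phi hζ ((u⁻¹ : (𝓞 K)ˣ) : 𝓞 K)).fst := rfl

theorem dlog_eq_one_of_dvd (u : (𝓞 K)ˣ) (a : ℤ) (h : (p : 𝓞 K) ∣ (u : 𝓞 K) - (a : 𝓞 K)) :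
    dlog hζ u = 1 := by
  have : (dlog hζ u).toAdd = 0 := by
    rw [dlog_apply, snd_Phi_eq_zero_of_dvd hζ _ a h, zero_mul]
  exact this

/-- `dlog u` times the first component of `Phi u` is the second component of `Phi u`. -/
theorem dlog_mul_fst (u : (𝓞 K)ˣ) :
    (dlog hζ u).toAdd * (Phi hζ (u : 𝓞 K)).fst = (Phi hζ (u : 𝓞 K)).snd := by
  have hu : (Phi hζ (u : 𝓞 K)).fst * (Phi hζ ((u⁻¹ : (𝓞 K)ˣ) : 𝓞 K)).fst = 1 := by
    rw [← fst_mul, ← map_mul, ← Units.val_mul, mul_inv_cancel, Units.val_one, map_one, fst_one]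
  rw [dlog_apply]
  linear_combination (Phi hζ (u : 𝓞 K)).snd * hu

end Phi

end Fermat.Agent.FLTSmall.KL
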