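import Mathlib
import Fermat.Agent.FLTSmall.KLAbstract

set_option autoImplicit false

namespace Fermat.Agent.FLTSmall.KL

open NumberField NumberField.Units

section generators

variable (K : Type*) [Field K] [NumberField K]

/-- The unit group of a number field is generated by `rank K + 1` elements. -/
theorem exists_generators_units :
    ∃ t : Fin (rank K + 1) → (𝓞 K)ˣ, ∀ u : (𝓞 K)ˣ,
      ∃ c : Fin (rank K + 1) → ℤ, u = ∏ j, t j ^ c j := by
  obtain ⟨τ, hτ⟩ := (inferInstance : IsCyclic (torsion K)).exists_generator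
  refine ⟨Fin.cons (τ : (𝓞 K)ˣ) (fundSystem K), fun u => ?_⟩
  obtain ⟨⟨ζ, e⟩, hζe, -⟩ := exist_unique_eq_mul_prod K u
  obtain ⟨k, hk⟩ := Subgroup.mem_zpowers_iff.mp (hτ ζ)
  refine ⟨Fin.cons k e, ?_⟩
  rw [Fin.prod_univ_succ]
  simp only [Fin.cons_zero, Fin.cons_succ]
  rw [hζe]
  congr 1
  simp only
  rw [← hk]
  simp

/-- Variant: generators modulo `p`-th powers, in the shape needed by the abstract core. -/
theorem exists_generators_units_mod_pow (p : ℕ) :
    ∃ t : Fin (rank K + 1) → (𝓞 K)ˣ, ∀ u : (𝓞 K)ˣ,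
      ∃ (c : Fin (rank K + 1) → ℤ) (v : (𝓞 K)ˣ), u = (∏ j, t j ^ c j) * v ^ p := by
  obtain ⟨t, ht⟩ := exists_generators_units K
  refine ⟨t, fun u => ?_⟩
  obtain ⟨c, hc⟩ := ht u
  exact ⟨c, 1, by simpa using hc⟩

end generators

section cyclotomicRank

variable (p : ℕ) [hp : Fact p.Prime] (K : Type*) [Field K] [NumberField K]
  [IsCyclotomicExtension {p} ℚ K]

theorem rank_add_one_eq (hp2 : 2 < p) : rank K + 1 = (p - 1) / 2 := by
  have h1 := IsCyclotomicExtension.Rat.nrRealPlaces_eq_zero (n := p) K hp2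
  have h2 := IsCyclotomicExtension.Rat.nrComplexPlaces_eq_totient_div_two p K
  have h3 := InfinitePlace.card_eq_nrRealPlaces_add_nrComplexPlaces K
  rw [Nat.totient_prime hp.out] at h2
  have h4 : 0 < Fintype.card (InfinitePlace K) := Fintype.card_pos
  rw [rank]
  omega

end cyclotomicRank

end Fermat.Agent.FLTSmall.KL
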