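import Mathlib
import Fermat.Agent.FLTSmall.KLAbstract
import Fermat.Agent.FLTSmall.KLUnits
import Fermat.Agent.FLTSmall.KLDlog

set_option autoImplicit false

namespace Fermat.Agent.FLTSmall.KL

open Polynomial NumberField TrivSqZeroExt

/-- The matrix `1 + N`, `N` the nilpotent shift. -/
def Amat (p n : ℕ) : Matrix (Fin n) (Fin n) (ZMod p) :=
  fun i j => if i = j ∨ i.val = j.val + 1 then 1 else 0

/-- Matrix image of `dlog` of the unit `(ζ^a - 1)/(ζ - 1)`, whose inverse is `∑_{j<b} ζ^(a j)`. -/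
def Dmat (p n a b : ℕ) : Matrix (Fin n) (Fin n) (ZMod p) :=
  (∑ j ∈ Finset.range a, (j : ZMod p) • (Amat p n) ^ (j - 1)) *
    (∑ j ∈ Finset.range b, ((Amat p n) ^ a) ^ j)

/-- The first basis column vector. -/
def e0 (p n : ℕ) : Fin n → ZMod p := fun k => if k.val = 0 then 1 else 0

/-- The certificate matrix: first columns of the `Dmat`s. -/
def Mcert (p n m : ℕ) (ab : Fin m → ℕ × ℕ) : Matrix (Fin n) (Fin m) (ZMod p) :=
  Matrix.of fun k i => (Dmat p n (ab i).1 (ab i).2).mulVec (e0 p n) k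

section ev

variable (p : ℕ) [hp : Fact p.Prime] {n : ℕ} (hA : (Amat p n - 1) ^ (p - 2) = 0)

/-- Evaluation `𝔽_p[X]/(X-1)^(p-2) → M_n(𝔽_p)` at the matrix `1 + N`. -/
noncomputable def ev : Rq p →ₐ[ZMod p] Matrix (Fin n) (Fin n) (ZMod p) :=
  Ideal.Quotient.liftₐ _ (aeval (Amat p n)) (by
    intro a ha
    obtain ⟨c, rfl⟩ := Ideal.mem_span_singleton.mp ha
    rw [map_mul, map_pow, map_sub, aeval_X, map_one, hA, zero_mul])

theorem ev_mk (f : (ZMod p)[X]) :
    ev p hA (Ideal.Quotient.mk _ f) = aeval (Amat p n) f := rfl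

theorem ev_xbar : ev p hA (xbar p) = Amat p n := by
  rw [xbar, ev_mk, aeval_X]

end ev

section units

variable {p : ℕ} [hp : Fact p.Prime] {K : Type*} [Field K] [NumberField K]
  [IsCyclotomicExtension {p} ℚ K] {ζ : K} (hζ : IsPrimitiveRoot ζ p)

theorem toInteger_pow_p : hζ.toInteger ^ p = 1 :=
  hζ.toInteger_isPrimitiveRoot.pow_eq_one

theorem toInteger_sub_one_ne_zero : hζ.toInteger - 1 ≠ 0 := by
  intro h
  have h1 : hζ.toInteger = 1 := sub_eq_zero.mp h
  have := hζ.toInteger_isPrimitiveRoot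
  rw [h1] at this
  have := this.eq_orderOf
  rw [orderOf_one] at this
  exact hp.out.one_lt.ne' this

theorem geom_mul_geom (a b : ℕ) (hab : a * b % p = 1) :
    (∑ j ∈ Finset.range a, hζ.toInteger ^ j) *
      (∑ j ∈ Finset.range b, (hζ.toInteger ^ a) ^ j) = 1 := by
  have h1 : (hζ.toInteger - 1) * (∑ j ∈ Finset.range a, hζ.toInteger ^ j) =
      hζ.toInteger ^ a - 1 := mul_geom_sum _ _
  have h2 : (hζ.toInteger ^ a - 1) * (∑ j ∈ Finset.range b, (hζ.toInteger ^ a) ^ j) =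
      (hζ.toInteger ^ a) ^ b - 1 := mul_geom_sum _ _
  have h3 : (hζ.toInteger ^ a) ^ b = hζ.toInteger := by
    rw [← pow_mul, ← Nat.mod_add_div (a * b) p, hab, pow_add, pow_mul, toInteger_pow_p, one_pow,
      mul_one, pow_one]
  have h4 : (hζ.toInteger - 1) * ((∑ j ∈ Finset.range a, hζ.toInteger ^ j) *
      (∑ j ∈ Finset.range b, (hζ.toInteger ^ a) ^ j)) = (hζ.toInteger - 1) * 1 := by
    rw [← mul_assoc, h1, h2, h3, mul_one]
  exact mul_left_cancel₀ (toInteger_sub_one_ne_zero hζ) h4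

/-- The cyclotomic unit `(ζ^a - 1)/(ζ - 1)`. -/
noncomputable def gunit (a b : ℕ) (hab : a * b % p = 1) : (𝓞 K)ˣ :=
  Units.mkOfMulEqOne _ _ (geom_mul_geom hζ a b hab)

theorem gunit_val (a b : ℕ) (hab : a * b % p = 1) :
    ((gunit hζ a b hab : (𝓞 K)ˣ) : 𝓞 K) = ∑ j ∈ Finset.range a, hζ.toInteger ^ j := rfl

theorem gunit_inv (a b : ℕ) (hab : a * b % p = 1) :
    (((gunit hζ a b hab)⁻¹ : (𝓞 K)ˣ) : 𝓞 K) = ∑ j ∈ Finset.range b, (hζ.toInteger ^ a) ^ j := rfl

theorem dlog_gunit (a b : ℕ) (hab : a * b % p = 1) :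
    (dlog hζ (gunit hζ a b hab)).toAdd =
      (∑ j ∈ Finset.range a, (j : Rq p) * xbar p ^ (j - 1)) *
        (∑ j ∈ Finset.range b, (xbar p ^ a) ^ j) := by
  rw [dlog_apply, gunit_val, gunit_inv]
  simp only [map_sum, map_pow, Phi_zeta]
  congr 1
  · rw [snd_sum]
    refine Finset.sum_congr rfl fun j _ => ?_
    rw [snd_pow]
    simp [xi, Nat.pred_eq_sub_one]
  · rw [fst_sum]
    refine Finset.sum_congr rfl fun j _ => ?_
    rw [fst_pow, fst_pow]
    simp [xi]

theorem ev_dlog_gunit {n : ℕ} (hA : (Amat p n - 1) ^ (p - 2) = 0) (a b : ℕ)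
    (hab : a * b % p = 1) :
    ev p hA (dlog hζ (gunit hζ a b hab)).toAdd = Dmat p n a b := by
  rw [dlog_gunit, map_mul, map_sum, map_sum, Dmat]
  congr 1
  · refine Finset.sum_congr rfl fun j _ => ?_
    rw [map_mul, map_pow, ev_xbar, map_natCast]
    rw [Nat.cast_smul_eq_nsmul (ZMod p), nsmul_eq_mul]
  · refine Finset.sum_congr rfl fun j _ => ?_
    rw [map_pow, map_pow, ev_xbar]

end units

section independence

variable {p : ℕ} [hp : Fact p.Prime] {n m : ℕ}

/-- Independence from a left inverse of the certificate matrix. -/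
theorem linearIndependent_of_cert (hA : (Amat p n - 1) ^ (p - 2) = 0)
    (d : Fin m → Rq p) (D : Fin m → Matrix (Fin n) (Fin n) (ZMod p))
    (hd : ∀ i, ev p hA (d i) = D i) (w : Fin n → ZMod p)
    (B : Matrix (Fin m) (Fin n) (ZMod p))
    (hB : B * (Matrix.of fun k i => (D i).mulVec w k) = 1) :
    LinearIndependent (ZMod p) d := by
  rw [Fintype.linearIndependent_iff]
  intro e he
  have h1 : ∑ i, e i • D i = 0 := by
    have := congrArg (ev p hA) he
    rw [map_sum, map_zero] at this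
    rw [← this]
    refine Finset.sum_congr rfl fun i _ => ?_
    rw [map_smul, hd]
  have h2 : (Matrix.of fun k i => (D i).mulVec w k).mulVec e = 0 := by
    funext k
    have := congrFun (congrArg (fun M : Matrix (Fin n) (Fin n) (ZMod p) => M.mulVec w) h1) k
    simp only [Matrix.zero_mulVec, Pi.zero_apply] at this
    rw [Matrix.sum_mulVec, Finset.sum_apply] at this
    simp only [Matrix.mulVec, dotProduct, Matrix.of_apply, Pi.zero_apply]
    rw [← this]
    refine Finset.sum_congr rfl fun i _ => ?_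
    rw [Matrix.smul_mulVec, Pi.smul_apply, smul_eq_mul, mul_comm]
    rfl
  have h3 : e = 0 := by
    have := congrArg (fun v => B.mulVec v) h2
    simp only [Matrix.mulVec_mulVec, hB, Matrix.one_mulVec, Matrix.mulVec_zero] at this
    exact this
  intro i
  rw [h3]
  rfl

end independence

section final

variable {p : ℕ} [hp : Fact p.Prime] {K : Type*} [Field K] [NumberField K]
  [IsCyclotomicExtension {p} ℚ K]

/-- **Kummer's lemma from a certificate.** -/
theorem kummer_lemma_of_cert (hp2 : 2 < p) {n : ℕ}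
    (hA : (Amat p n - 1) ^ (p - 2) = 0)
    (ab : Fin ((p - 1) / 2) → ℕ × ℕ) (hab : ∀ i, (ab i).1 * (ab i).2 % p = 1)
    (B : Matrix (Fin ((p - 1) / 2)) (Fin n) (ZMod p))
    (hB : B * Mcert p n ((p - 1) / 2) ab = 1)
    (u : (𝓞 K)ˣ) (a : ℤ) (h : (p : 𝓞 K) ∣ (u : 𝓞 K) - (a : 𝓞 K)) :
    ∃ v : (𝓞 K)ˣ, u = v ^ p := by
  have hζ := IsCyclotomicExtension.zeta_spec p ℚ K
  have key : ∀ m, NumberField.Units.rank K + 1 = m →
      ∃ t : Fin m → (𝓞 K)ˣ, ∀ u : (𝓞 K)ˣ,
        ∃ (c : Fin m → ℤ) (v : (𝓞 K)ˣ), u = (∏ j, t j ^ c j) * v ^ p := by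
    rintro m rfl
    exact exists_generators_units_mod_pow K p
  obtain ⟨t, ht⟩ := key _ (rank_add_one_eq p K hp2)
  refine exists_pow_eq_of_map_eq_one (dlog hζ) t ht
    (fun i => gunit hζ (ab i).1 (ab i).2 (hab i)) ?_ u (dlog_eq_one_of_dvd hζ u a h)
  exact linearIndependent_of_cert hA _ (fun i => Dmat p n (ab i).1 (ab i).2)
    (fun i => ev_dlog_gunit hζ hA _ _ (hab i)) (e0 p n) B hB

end final

end Fermat.Agent.FLTSmall.KL
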