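import Mathlib
import Fermat.Agent.FLTSmall.KLCert

set_option autoImplicit false

namespace Fermat.Agent.FLTSmall.KL

open NumberField

/-- Unit parameters for `p = 11`. -/
def ab_eleven : Fin ((11 - 1) / 2) → ℕ × ℕ := ![(10, 10), (2, 6), (3, 4), (4, 3), (5, 9)]

/-- Left inverse of the certificate matrix for `p = 11`. -/
def B_eleven : Matrix (Fin ((11 - 1) / 2)) (Fin 9) (ZMod 11) :=
  !![2, 10, 0, 2, 0, 0, 0, 2, 0;
      6, 8, 0, 0, 0, 8, 0, 1, 0;
      7, 7, 0, 1, 0, 5, 0, 5, 0;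
      0, 4, 0, 3, 0, 0, 0, 4, 0;
      2, 2, 0, 1, 0, 1, 0, 9, 0]

set_option maxRecDepth 1000000 in
theorem hA_eleven : (Amat 11 9 - 1) ^ (11 - 2) = 0 := by decide

set_option maxRecDepth 1000000 in
theorem hab_eleven : ∀ i, (ab_eleven i).1 * (ab_eleven i).2 % 11 = 1 := by decide

set_option maxRecDepth 1000000 in
theorem hB_eleven : B_eleven * Mcert 11 9 ((11 - 1) / 2) ab_eleven = 1 := by decide

/-- **Kummer's lemma** for `p = 11`. -/
theorem kummer_lemma_eleven {K : Type*} [Field K] [NumberField K]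
    [IsCyclotomicExtension {11} ℚ K] (u : (𝓞 K)ˣ) (a : ℤ)
    (h : (11 : 𝓞 K) ∣ (u : 𝓞 K) - (a : 𝓞 K)) : ∃ v : (𝓞 K)ˣ, u = v ^ 11 := by
  have : Fact (Nat.Prime 11) := ⟨by norm_num⟩
  exact kummer_lemma_of_cert (p := 11) (by norm_num) hA_eleven ab_eleven hab_eleven B_eleven hB_eleven u a
    (by exact_mod_cast h)

end Fermat.Agent.FLTSmall.KL

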