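import Mathlib
import Fermat.Agent.FLTSmall.KLCert

set_option autoImplicit false

namespace Fermat.Agent.FLTSmall.KL

open NumberField

/-- Unit parameters for `p = 5`. -/
def ab_five : Fin ((5 - 1) / 2) → ℕ × ℕ := ![(4, 4), (2, 3)]

/-- Left inverse of the certificate matrix for `p = 5`. -/
def B_five : Matrix (Fin ((5 - 1) / 2)) (Fin 3) (ZMod 5) :=
  !![1, 2, 0;
      4, 4, 0]

set_option maxRecDepth 1000000 in
theorem hA_five : (Amat 5 3 - 1) ^ (5 - 2) = 0 := by decide

set_option maxRecDepth 1000000 in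
theorem hab_five : ∀ i, (ab_five i).1 * (ab_five i).2 % 5 = 1 := by decide

set_option maxRecDepth 1000000 in
theorem hB_five : B_five * Mcert 5 3 ((5 - 1) / 2) ab_five = 1 := by decide

/-- **Kummer's lemma** for `p = 5`. -/
theorem kummer_lemma_five {K : Type*} [Field K] [NumberField K]
    [IsCyclotomicExtension {5} ℚ K] (u : (𝓞 K)ˣ) (a : ℤ)
    (h : (5 : 𝓞 K) ∣ (u : 𝓞 K) - (a : 𝓞 K)) : ∃ v : (𝓞 K)ˣ, u = v ^ 5 := by
  have : Fact (Nat.Prime 5) := ⟨by norm_num⟩
  exact kummer_lemma_of_cert (p := 5) (by norm_num) hA_five ab_five hab_five B_five hB_five u a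
    (by exact_mod_cast h)

end Fermat.Agent.FLTSmall.KL

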