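import Mathlib
import Fermat.Agent.FLTSmall.KLCert

set_option autoImplicit false

namespace Fermat.Agent.FLTSmall.KL

open NumberField

/-- Unit parameters for `p = 7`. -/
def ab_seven : Fin ((7 - 1) / 2) → ℕ × ℕ := ![(6, 6), (2, 4), (3, 5)]

/-- Left inverse of the certificate matrix for `p = 7`. -/
def B_seven : Matrix (Fin ((7 - 1) / 2)) (Fin 5) (ZMod 7) :=
  !![0, 2, 0, 6, 0;
      3, 4, 0, 6, 0;
      3, 0, 0, 3, 0]

set_option maxRecDepth 1000000 in
theorem hA_seven : (Amat 7 5 - 1) ^ (7 - 2) = 0 := by decide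

set_option maxRecDepth 1000000 in
theorem hab_seven : ∀ i, (ab_seven i).1 * (ab_seven i).2 % 7 = 1 := by decide

set_option maxRecDepth 1000000 in
theorem hB_seven : B_seven * Mcert 7 5 ((7 - 1) / 2) ab_seven = 1 := by decide

/-- **Kummer's lemma** for `p = 7`. -/
theorem kummer_lemma_seven {K : Type*} [Field K] [NumberField K]
    [IsCyclotomicExtension {7} ℚ K] (u : (𝓞 K)ˣ) (a : ℤ)
    (h : (7 : 𝓞 K) ∣ (u : 𝓞 K) - (a : 𝓞 K)) : ∃ v : (𝓞 K)ˣ, u = v ^ 7 := by
  have : Fact (Nat.Prime 7) := ⟨by norm_num⟩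
  exact kummer_lemma_of_cert (p := 7) (by norm_num) hA_seven ab_seven hab_seven B_seven hB_seven u a
    (by exact_mod_cast h)

end Fermat.Agent.FLTSmall.KL

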