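import Mathlib
import Fermat.Agent.FLTSmall.KLCert

set_option autoImplicit false

namespace Fermat.Agent.FLTSmall.KL

open NumberField

/-- Unit parameters for `p = 13`. -/
def ab_thirteen : Fin ((13 - 1) / 2) → ℕ × ℕ := ![(12, 12), (2, 7), (3, 9), (4, 10), (5, 8), (6, 11)]

/-- Left inverse of the certificate matrix for `p = 13`. -/
def B_thirteen : Matrix (Fin ((13 - 1) / 2)) (Fin 11) (ZMod 13) :=
  !![12, 10, 0, 10, 0, 4, 0, 6, 0, 9, 0;
      10, 2, 0, 10, 0, 7, 0, 11, 0, 6, 0;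
      12, 12, 0, 2, 0, 4, 0, 0, 0, 7, 0;
      7, 11, 0, 9, 0, 9, 0, 6, 0, 11, 0;
      4, 2, 0, 2, 0, 7, 0, 1, 0, 5, 0;
      4, 1, 0, 2, 0, 11, 0, 1, 0, 2, 0]

set_option maxRecDepth 1000000 in
theorem hA_thirteen : (Amat 13 11 - 1) ^ (13 - 2) = 0 := by decide

set_option maxRecDepth 1000000 in
theorem hab_thirteen : ∀ i, (ab_thirteen i).1 * (ab_thirteen i).2 % 13 = 1 := by decide

set_option maxRecDepth 1000000 in
theorem hB_thirteen : B_thirteen * Mcert 13 11 ((13 - 1) / 2) ab_thirteen = 1 := by decide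

/-- **Kummer's lemma** for `p = 13`. -/
theorem kummer_lemma_thirteen {K : Type*} [Field K] [NumberField K]
    [IsCyclotomicExtension {13} ℚ K] (u : (𝓞 K)ˣ) (a : ℤ)
    (h : (13 : 𝓞 K) ∣ (u : 𝓞 K) - (a : 𝓞 K)) : ∃ v : (𝓞 K)ˣ, u = v ^ 13 := by
  have : Fact (Nat.Prime 13) := ⟨by norm_num⟩
  exact kummer_lemma_of_cert (p := 13) (by norm_num) hA_thirteen ab_thirteen hab_thirteen B_thirteen hB_thirteen u a
    (by exact_mod_cast h)

end Fermat.Agent.FLTSmall.KL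

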