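import Mathlib

/-!
# Kummer's lemma, log-derivative side (TFLT piece B3, part B)

`p` prime, `K` the `p`-th cyclotomic field, `ζ` the chosen primitive root in `𝓞 K`.
* `rho : 𝓞 K →ₐ[ℤ] 𝔽_p[X]/(X^(p-1))`, `ζ ↦ 1 + X`; kills `p`.
* `X_pow_dvd_logDerNum`: if `∏ G_i^(c_i) ≡ const mod X^(n+1)` and all `G_i(0) ≠ 0` then
  `X^n ∣ ∑ c_i G_i' ∏_{j≠i} G_j`.
* `cycloUnit p K i`: the units `ζ` (`i = 0`) and `1 + ζ + ⋯ + ζ^i` (`i ≥ 1`).
* `hstar_of_cert`: a polynomial certificate implies that a product `∏ cycloUnit i ^ c i`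
  congruent to a rational integer mod `p` has all exponents divisible by `p`.
* `cert_of_matrix`: the certificate follows from an explicit left inverse mod `p` of a square
  minor of the coefficient matrix (a computable list model of `ℤ[X]` makes this `decide`-able).
-/
open Polynomial NumberField

namespace Fermat.Agent.FLTSmall.Dlog

section logder
variable {F : Type*} [Field F] {ι : Type*} [DecidableEq ι]

/-- `S_s = ∑_{i∈s} c_i G_i' ∏_{j∈s, j≠i} G_j`. -/
noncomputable def logDerNum (G : ι → F[X]) (c : ι → ℕ) (s : Finset ι) : F[X] :=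
  ∑ i ∈ s, C (c i : F) * derivative (G i) * ∏ j ∈ s.erase i, G j

theorem logDerNum_insert (G : ι → F[X]) (c : ι → ℕ) {s : Finset ι} {a : ι} (ha : a ∉ s) :
    logDerNum G c (insert a s) =
      C (c a : F) * derivative (G a) * ∏ j ∈ s, G j + G a * logDerNum G c s := by
  unfold logDerNum
  rw [Finset.sum_insert ha, Finset.erase_insert ha, Finset.mul_sum]
  congr 1
  refine Finset.sum_congr rfl fun i hi => ?_
  have hia : a ≠ i := fun h => ha (h ▸ hi)
  have : (insert a s).erase i = insert a (s.erase i) := by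
    rw [Finset.erase_insert_of_ne hia]
  rw [this, Finset.prod_insert (by simp [ha])]
  ring

theorem derivative_prod_pow_mul (G : ι → F[X]) (c : ι → ℕ) (s : Finset ι) :
    derivative (∏ i ∈ s, G i ^ c i) * ∏ i ∈ s, G i =
      (∏ i ∈ s, G i ^ c i) * logDerNum G c s := by
  induction s using Finset.induction_on with
  | empty => simp [logDerNum]
  | insert a s ha ih =>
    rw [Finset.prod_insert ha, Finset.prod_insert ha, logDerNum_insert G c ha, derivative_mul,
      derivative_pow]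
    have h1 : C (c a : F) * G a ^ (c a - 1) * derivative (G a) * G a =
        C (c a : F) * G a ^ (c a) * derivative (G a) := by
      rcases Nat.eq_zero_or_pos (c a) with h | h
      · simp [h]
      · have : G a ^ (c a - 1) * G a = G a ^ c a := by
          rw [← pow_succ, Nat.sub_add_cancel h]
        calc C (c a : F) * G a ^ (c a - 1) * derivative (G a) * G a
            = C (c a : F) * (G a ^ (c a - 1) * G a) * derivative (G a) := by ring
          _ = _ := by rw [this]
    calc (C (c a : F) * G a ^ (c a - 1) * derivative (G a) * ∏ i ∈ s, G i ^ c i +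
            G a ^ c a * derivative (∏ i ∈ s, G i ^ c i)) * (G a * ∏ i ∈ s, G i)
        = (C (c a : F) * G a ^ (c a - 1) * derivative (G a) * G a) * (∏ i ∈ s, G i ^ c i) *
            (∏ i ∈ s, G i) +
          G a ^ c a * G a * (derivative (∏ i ∈ s, G i ^ c i) * ∏ i ∈ s, G i) := by ring
      _ = _ := by rw [h1, ih]; ring

/-- Polynomial-level log-derivative lemma. -/
theorem X_pow_dvd_logDerNum (G : ι → F[X]) (c : ι → ℕ) (s : Finset ι)
    (hG : ∀ i ∈ s, (G i).coeff 0 ≠ 0) (a : F) (n : ℕ)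
    (h : X ^ (n + 1) ∣ ∏ i ∈ s, G i ^ c i - C a) :
    X ^ n ∣ logDerNum G c s := by
  obtain ⟨H, hH⟩ := h
  have hP : ∏ i ∈ s, G i ^ c i = C a + X ^ (n + 1) * H := by rw [← hH]; ring
  have hder : X ^ n ∣ derivative (∏ i ∈ s, G i ^ c i) := by
    rw [hP]
    simp only [derivative_add, derivative_C, zero_add, derivative_mul, derivative_X_pow,
      Nat.add_sub_cancel]
    refine dvd_add ?_ ?_
    · exact Dvd.intro _ (by ring : X ^ n * (C ((n + 1 : ℕ) : F) * H) = _ )
    · rw [pow_succ]; exact Dvd.intro _ (by ring : X ^ n * (X * derivative H) = _)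
  have hcoprime : ¬ (X : F[X]) ∣ ∏ i ∈ s, G i ^ c i := by
    rw [X_dvd_iff, coeff_zero_eq_eval_zero, eval_prod]
    simp only [eval_pow]
    rw [Finset.prod_eq_zero_iff]
    rintro ⟨i, hi, h0⟩
    have := eq_zero_of_pow_eq_zero h0
    rw [← coeff_zero_eq_eval_zero] at this
    exact hG i hi this
  have key := derivative_prod_pow_mul G c s
  have : X ^ n ∣ (∏ i ∈ s, G i ^ c i) * logDerNum G c s := by
    rw [← key]; exact Dvd.dvd.mul_right hder _
  exact prime_X.pow_dvd_of_dvd_mul_left n hcoprime this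

end logder

section rho
variable (p : ℕ) [hp : Fact p.Prime] (K : Type*) [Field K] [NumberField K]
  [IsCyclotomicExtension {p} ℚ K]

/-- The truncated polynomial ring `𝔽_p[X]/(X^(p-1))`. -/
abbrev TruncRing : Type := (ZMod p)[X] ⧸ Ideal.span {(X : (ZMod p)[X]) ^ (p - 1)}

/-- The chosen primitive root as an algebraic integer. -/
noncomputable abbrev zetaInt : 𝓞 K := (IsCyclotomicExtension.zeta_spec p ℚ K).toInteger

theorem cyclotomic_zmod_eq : cyclotomic p (ZMod p) = (X - 1) ^ (p - 1) := by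
  have h := cyclotomic_mul_prime_eq_pow_of_not_dvd (ZMod p) (p := p) (n := 1)
    (by simpa using hp.out.one_lt.ne')
  rw [one_mul, cyclotomic_one] at h
  exact h

theorem aeval_one_add_X_cyclotomic :
    aeval (Ideal.Quotient.mk (Ideal.span {(X : (ZMod p)[X]) ^ (p - 1)}) (1 + X))
      (cyclotomic p ℤ) = 0 := by
  have h1 : aeval (Ideal.Quotient.mk (Ideal.span {(X : (ZMod p)[X]) ^ (p - 1)}) (1 + X))
      (cyclotomic p ℤ) =
      Ideal.Quotient.mk _ (aeval (1 + X : (ZMod p)[X]) (cyclotomic p ℤ)) := by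
    have := Polynomial.aeval_algHom_apply
      (Ideal.Quotient.mkₐ ℤ (Ideal.span {(X : (ZMod p)[X]) ^ (p - 1)})) (1 + X : (ZMod p)[X])
      (cyclotomic p ℤ)
    simpa using this
  rw [h1, Ideal.Quotient.eq_zero_iff_mem, Ideal.mem_span_singleton]
  have h2 : aeval (1 + X : (ZMod p)[X]) (cyclotomic p ℤ) =
      (cyclotomic p (ZMod p)).comp (1 + X) := by
    rw [← map_cyclotomic_int p (ZMod p), comp, eval₂_map, aeval_def]
    congr 1
  rw [h2, cyclotomic_zmod_eq]
  simp

theorem minpoly_zetaInt : minpoly ℤ (zetaInt p K) = cyclotomic p ℤ := by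
  have hζ := IsCyclotomicExtension.zeta_spec p ℚ K
  rw [cyclotomic_eq_minpoly hζ hp.out.pos, ← hζ.coe_toInteger, ← RingOfIntegers.minpoly_coe]
  rfl

theorem aeval_gen_eq_zero :
    aeval (Ideal.Quotient.mk (Ideal.span {(X : (ZMod p)[X]) ^ (p - 1)}) (1 + X))
      (minpoly ℤ (IsCyclotomicExtension.zeta_spec p ℚ K).integralPowerBasis.gen) = 0 := by
  rw [IsPrimitiveRoot.integralPowerBasis_gen]
  have := minpoly_zetaInt p K
  rw [this]
  exact aeval_one_add_X_cyclotomic p

/-- The reduction map `𝓞 K → 𝔽_p[X]/(X^(p-1))`, `ζ ↦ 1 + X`. -/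
noncomputable def rho : 𝓞 K →ₐ[ℤ] TruncRing p :=
  (IsCyclotomicExtension.zeta_spec p ℚ K).integralPowerBasis.lift
    (Ideal.Quotient.mk _ (1 + X)) (aeval_gen_eq_zero p K)

theorem rho_zeta : rho p K (zetaInt p K) = Ideal.Quotient.mk _ (1 + X) := by
  have h := (IsCyclotomicExtension.zeta_spec p ℚ K).integralPowerBasis.lift_gen
    (Ideal.Quotient.mk (Ideal.span {(X : (ZMod p)[X]) ^ (p - 1)}) (1 + X))
    (aeval_gen_eq_zero p K)
  have hg : (IsCyclotomicExtension.zeta_spec p ℚ K).integralPowerBasis.gen = zetaInt p K :=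
    IsPrimitiveRoot.integralPowerBasis_gen _
  exact (congrArg (rho p K) hg.symm).trans h

theorem rho_intCast (a : ℤ) :
    rho p K (a : 𝓞 K) = Ideal.Quotient.mk _ (C (a : ZMod p)) := by
  rw [map_intCast]
  simp

theorem rho_eq_of_dvd_sub {u : 𝓞 K} {a : ℤ} (h : (p : 𝓞 K) ∣ u - a) :
    rho p K u = Ideal.Quotient.mk _ (C (a : ZMod p)) := by
  obtain ⟨w, hw⟩ := h
  have hu : u = a + p * w := by rw [← hw]; ring
  have hp0 : ((p : ℕ) : TruncRing p) = 0 := by
    have : ((p : ℕ) : (ZMod p)[X]) = 0 := by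
      rw [← C_eq_natCast, ZMod.natCast_self, C_0]
    rw [← map_natCast (Ideal.Quotient.mk (Ideal.span {(X : (ZMod p)[X]) ^ (p - 1)})), this,
      map_zero]
  rw [hu, map_add, map_mul, map_natCast, hp0, zero_mul, add_zero, rho_intCast]

end rho

section listmodel

/-- coefficientwise sum of coefficient lists -/
def lAdd : List ℤ → List ℤ → List ℤ
  | [], l => l
  | l, [] => l
  | a :: l, b :: m => (a + b) :: lAdd l m

/-- scalar multiple -/
def lSmul (a : ℤ) (l : List ℤ) : List ℤ := l.map (a * ·)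

/-- product of coefficient lists -/
def lMul : List ℤ → List ℤ → List ℤ
  | [], _ => []
  | a :: l, m => lAdd (lSmul a m) (0 :: lMul l m)

/-- derivative of a coefficient list -/
def lDeriv : List ℤ → List ℤ
  | [] => []
  | _ :: l => lAdd l (0 :: lDeriv l)

/-- powers -/
def lPow (l : List ℤ) : ℕ → List ℤ
  | 0 => [1]
  | n + 1 => lMul l (lPow l n)

/-- `∑_{j<n} (1+X)^j` as a list -/
def lGeom : ℕ → List ℤ
  | 0 => []
  | n + 1 => lAdd (lGeom n) (lPow [1, 1] n)

/-- product of a list of coefficient lists -/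
def lProd : List (List ℤ) → List ℤ
  | [] => [1]
  | l :: ls => lMul l (lProd ls)

/-- the polynomial with given coefficient list -/
noncomputable def toPoly : List ℤ → ℤ[X]
  | [] => 0
  | a :: l => C a + X * toPoly l

@[simp] theorem toPoly_nil : toPoly [] = 0 := rfl
@[simp] theorem toPoly_cons (a : ℤ) (l : List ℤ) : toPoly (a :: l) = C a + X * toPoly l := rfl

theorem toPoly_lAdd : ∀ l m : List ℤ, toPoly (lAdd l m) = toPoly l + toPoly m
  | [], l => by simp [lAdd]
  | a :: l, [] => by simp [lAdd]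
  | a :: l, b :: m => by
    simp only [lAdd, toPoly_cons, toPoly_lAdd l m, C_add]; ring

theorem toPoly_lSmul (a : ℤ) : ∀ l : List ℤ, toPoly (lSmul a l) = C a * toPoly l
  | [] => by simp [lSmul]
  | b :: l => by
    have := toPoly_lSmul a l
    simp only [lSmul, List.map_cons, toPoly_cons, C_mul] at this ⊢
    rw [this]; ring

theorem toPoly_lMul : ∀ l m : List ℤ, toPoly (lMul l m) = toPoly l * toPoly m
  | [], m => by simp [lMul]
  | a :: l, m => by
    simp only [lMul, toPoly_lAdd, toPoly_lSmul, toPoly_cons, toPoly_lMul l m, C_0]; ring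

theorem toPoly_lDeriv : ∀ l : List ℤ, toPoly (lDeriv l) = derivative (toPoly l)
  | [] => by simp [lDeriv]
  | a :: l => by
    simp only [lDeriv, toPoly_lAdd, toPoly_cons, toPoly_lDeriv l, C_0, derivative_add,
      derivative_C, derivative_mul, derivative_X]; ring

theorem toPoly_lPow (l : List ℤ) : ∀ n : ℕ, toPoly (lPow l n) = toPoly l ^ n
  | 0 => by simp [lPow]
  | n + 1 => by simp only [lPow, toPoly_lMul, toPoly_lPow l n]; ring

theorem toPoly_lGeom : ∀ n : ℕ, toPoly (lGeom n) = ∑ j ∈ Finset.range n, (1 + X : ℤ[X]) ^ j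
  | 0 => by simp [lGeom]
  | n + 1 => by
    rw [lGeom, toPoly_lAdd, toPoly_lGeom n, toPoly_lPow, Finset.sum_range_succ]
    simp

theorem toPoly_lProd : ∀ ls : List (List ℤ), toPoly (lProd ls) = (ls.map toPoly).prod
  | [] => by simp [lProd]
  | l :: ls => by simp [lProd, toPoly_lMul, toPoly_lProd ls]

theorem coeff_toPoly : ∀ (l : List ℤ) (d : ℕ), (toPoly l).coeff d = l.getD d 0
  | [], d => by simp
  | a :: l, 0 => by simp
  | a :: l, d + 1 => by
    simp only [toPoly_cons, coeff_add, coeff_C_succ, zero_add, coeff_X_mul, coeff_toPoly l d,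
      List.getD_cons_succ]

end listmodel

section units
variable (p : ℕ) [hp : Fact p.Prime] (K : Type*) [Field K] [NumberField K]
  [IsCyclotomicExtension {p} ℚ K]

/-- polynomial lifts of the cyclotomic units: `1 + X` for `i = 0`,
`∑_{j ≤ i} (1+X)^j` for `i ≥ 1` -/
noncomputable def Gpoly (R : Type*) [CommRing R] (i : ℕ) : R[X] :=
  if i = 0 then 1 + X else ∑ j ∈ Finset.range (i + 1), (1 + X) ^ j

/-- the cyclotomic units as elements: `ζ` for `i = 0`, `1 + ζ + ... + ζ^i` for `i ≥ 1` -/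
noncomputable def cycloElt (i : ℕ) : 𝓞 K :=
  if i = 0 then zetaInt p K else ∑ j ∈ Finset.range (i + 1), zetaInt p K ^ j

theorem isUnit_cycloElt {i : ℕ} (hi : i + 1 < p) : IsUnit (cycloElt p K i) := by
  have hζ := (IsCyclotomicExtension.zeta_spec p ℚ K).toInteger_isPrimitiveRoot
  unfold cycloElt
  split_ifs with h0
  · exact hζ.isUnit hp.out.ne_zero
  · exact hζ.geom_sum_isUnit hp.out.two_le
      (Nat.coprime_of_lt_prime (Nat.succ_ne_zero i) hi hp.out).symm

/-- the cyclotomic units as units (junk value `1` when `p ≤ i + 1`) -/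
noncomputable def cycloUnit (i : ℕ) : (𝓞 K)ˣ :=
  if hi : i + 1 < p then (isUnit_cycloElt p K hi).unit else 1

theorem coe_cycloUnit {i : ℕ} (hi : i + 1 < p) :
    ((cycloUnit p K i : (𝓞 K)ˣ) : 𝓞 K) = cycloElt p K i := by
  rw [cycloUnit, dif_pos hi]; rfl

theorem rho_cycloElt (i : ℕ) :
    rho p K (cycloElt p K i) = Ideal.Quotient.mk _ (Gpoly (ZMod p) i) := by
  unfold cycloElt Gpoly
  split_ifs with h0
  · exact rho_zeta p K
  · rw [map_sum, map_sum]
    refine Finset.sum_congr rfl fun j _ => ?_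
    rw [map_pow, map_pow, rho_zeta]

theorem coeff_zero_Gpoly {i : ℕ} (hi : i + 1 < p) : (Gpoly (ZMod p) i).coeff 0 ≠ 0 := by
  unfold Gpoly
  split_ifs with h0
  · simp
  · rw [coeff_zero_eq_eval_zero, eval_finsetSum]
    simp only [eval_pow, eval_add, eval_one, eval_X, add_zero, one_pow, Finset.sum_const,
      Finset.card_range, nsmul_eq_mul, mul_one]
    intro h
    rw [ZMod.natCast_eq_zero_iff] at h
    exact absurd (Nat.le_of_dvd (Nat.succ_pos i) h) (not_le.mpr hi)

/-- Reduction of the `hstar` hypothesis of Kummer's lemma to a polynomial certificate. -/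
theorem hstar_of_cert (k : ℕ) (hk : k < p)
    (hcert : ∀ c : Fin k → ℕ,
      (X : (ZMod p)[X]) ^ (p - 2) ∣
        logDerNum (fun i : Fin k => Gpoly (ZMod p) (i : ℕ)) c Finset.univ → ∀ i, p ∣ c i)
    (c : Fin k → ℕ) (a : ℤ)
    (h : (p : 𝓞 K) ∣ ((∏ i : Fin k, cycloUnit p K (i : ℕ) ^ c i : (𝓞 K)ˣ) : 𝓞 K) - a) :
    ∀ i, p ∣ c i := by
  apply hcert c
  have hlt : ∀ i : Fin k, (i : ℕ) + 1 < p := fun i => by have := i.2; omega
  have h1 := rho_eq_of_dvd_sub p K h
  rw [Units.coe_prod, map_prod] at h1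
  have h2 : ∀ i : Fin k, rho p K ((cycloUnit p K (i : ℕ) ^ c i : (𝓞 K)ˣ) : 𝓞 K) =
      Ideal.Quotient.mk _ (Gpoly (ZMod p) (i : ℕ) ^ c i) := by
    intro i
    rw [Units.val_pow_eq_pow_val, coe_cycloUnit p K (hlt i), map_pow, rho_cycloElt, map_pow]
  rw [Finset.prod_congr rfl (fun i _ => h2 i), ← map_prod, Ideal.Quotient.eq,
    Ideal.mem_span_singleton] at h1
  have hp3 : p - 1 = (p - 2) + 1 := by have := hp.out.two_le; omega
  rw [hp3] at h1
  exact X_pow_dvd_logDerNum _ c Finset.univ (fun i _ => coeff_zero_Gpoly p (hlt i)) _ _ h1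

end units

section cert
variable (p : ℕ) [hp : Fact p.Prime]

/-- integer coefficient list of the polynomial lift of the `i`-th cyclotomic unit -/
def Gl (i : ℕ) : List ℤ := if i = 0 then [1, 1] else lGeom (i + 1)

theorem toPoly_Gl (i : ℕ) : toPoly (Gl i) = Gpoly ℤ i := by
  unfold Gl Gpoly
  split_ifs
  · simp
  · exact toPoly_lGeom _

/-- coefficient list of `G_i' ∏_{j≠i} G_j` -/
def Ql (k : ℕ) (i : Fin k) : List ℤ :=
  lMul (lDeriv (Gl i)) (lProd ((List.finRange k).map fun j => if j ≠ i then Gl j else [1]))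

theorem map_Gpoly (i : ℕ) :
    (Gpoly ℤ i).map (Int.castRingHom (ZMod p)) = Gpoly (ZMod p) i := by
  unfold Gpoly
  split_ifs
  · simp
  · simp [Polynomial.map_sum]

theorem map_toPoly_Ql (k : ℕ) (i : Fin k) :
    (toPoly (Ql k i)).map (Int.castRingHom (ZMod p)) =
      derivative (Gpoly (ZMod p) (i : ℕ)) *
        ∏ j ∈ Finset.univ.erase i, Gpoly (ZMod p) ((j : Fin k) : ℕ) := by
  have h1 : ∏ j ∈ Finset.univ.erase i, Gpoly (ZMod p) ((j : Fin k) : ℕ) =
      ∏ j : Fin k, if j ≠ i then Gpoly (ZMod p) (j : ℕ) else 1 := by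
    rw [← Finset.filter_ne' Finset.univ i, Finset.prod_filter]
  rw [h1, Ql, toPoly_lMul, toPoly_lDeriv, toPoly_lProd, toPoly_Gl, Polynomial.map_mul,
    ← derivative_map, map_Gpoly, Polynomial.map_list_prod, List.map_map, List.map_map,
    Fin.prod_univ_def]
  congr 2
  refine List.map_congr_left fun j _ => ?_
  simp only [Function.comp_apply]
  split_ifs
  · rw [toPoly_Gl, map_Gpoly]
  · simp

theorem coeff_logDerNum (k : ℕ) (c : Fin k → ℕ) (d : ℕ) :
    (logDerNum (fun i : Fin k => Gpoly (ZMod p) (i : ℕ)) c Finset.univ).coeff d =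
      ((∑ i : Fin k, (c i : ℤ) * (Ql k i).getD d 0 : ℤ) : ZMod p) := by
  unfold logDerNum
  rw [finsetSum_coeff, Int.cast_sum]
  refine Finset.sum_congr rfl fun i _ => ?_
  rw [mul_assoc, ← map_toPoly_Ql, coeff_C_mul, coeff_map, coeff_toPoly]
  simp

/-- Certificate: an explicit left inverse modulo `p` of a square minor of the coefficient
matrix. -/
theorem cert_of_matrix (k : ℕ) (dsel : Fin k → ℕ) (hd : ∀ d, dsel d < p - 2)
    (B : Fin k → Fin k → ℤ)
    (hBM : ∀ i i0 : Fin k,
      ((∑ d : Fin k, B d i0 * (Ql k i).getD (dsel d) 0) - (if i = i0 then 1 else 0)) % (p : ℤ)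
        = 0)
    (c : Fin k → ℕ)
    (h : (X : (ZMod p)[X]) ^ (p - 2) ∣
        logDerNum (fun i : Fin k => Gpoly (ZMod p) (i : ℕ)) c Finset.univ) :
    ∀ i, p ∣ c i := by
  rw [X_pow_dvd_iff] at h
  have hdvd : ∀ d : Fin k, (p : ℤ) ∣ ∑ i : Fin k, (c i : ℤ) * (Ql k i).getD (dsel d) 0 := by
    intro d
    have := h (dsel d) (hd d)
    rw [coeff_logDerNum, ZMod.intCast_zmod_eq_zero_iff_dvd] at this
    exact this
  intro i0
  have key : (c i0 : ℤ) =
      ∑ d : Fin k, B d i0 * (∑ i : Fin k, (c i : ℤ) * (Ql k i).getD (dsel d) 0) -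
        ∑ i : Fin k, (c i : ℤ) *
          ((∑ d : Fin k, B d i0 * (Ql k i).getD (dsel d) 0) - (if i = i0 then 1 else 0)) := by
    have e1 : ∑ d : Fin k, B d i0 * (∑ i : Fin k, (c i : ℤ) * (Ql k i).getD (dsel d) 0) =
        ∑ i : Fin k, (c i : ℤ) * ∑ d : Fin k, B d i0 * (Ql k i).getD (dsel d) 0 := by
      simp only [Finset.mul_sum]
      rw [Finset.sum_comm]
      refine Finset.sum_congr rfl fun i _ => Finset.sum_congr rfl fun d _ => ?_
      ring
    rw [e1, ← Finset.sum_sub_distrib]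
    simp only [← mul_sub, sub_sub_cancel]
    simp
  have : (p : ℤ) ∣ (c i0 : ℤ) := by
    rw [key]
    refine dvd_sub (Finset.dvd_sum fun d _ => Dvd.dvd.mul_left (hdvd d) _)
      (Finset.dvd_sum fun i _ => Dvd.dvd.mul_left ?_ _)
    exact Int.dvd_of_emod_eq_zero (hBM i i0)
  exact_mod_cast this

end cert
end Fermat.Agent.FLTSmall.Dlog
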