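import Fermat.Agent.FLTSmall.KummerUnitsAbstract

set_option autoImplicit false

namespace Fermat.Agent.FLTSmall

open NumberField NumberField.Units

variable {p : ℕ} [hp : Fact p.Prime] {K : Type*} [Field K] [NumberField K]
  [IsCyclotomicExtension {p} ℚ K]

/-- the unit rank of the `p`-th cyclotomic field plus one is `(p - 1) / 2` -/
theorem KummerUnits.rank_add_one_eq (hp2 : p ≠ 2) : rank K + 1 = (p - 1) / 2 := by
  have hp3 : 2 < p := lt_of_le_of_ne hp.out.two_le (Ne.symm hp2)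
  have : NeZero p := ⟨hp.out.ne_zero⟩
  have h1 := IsCyclotomicExtension.Rat.nrRealPlaces_eq_zero (n := p) K hp3
  have h2 := IsCyclotomicExtension.Rat.nrComplexPlaces_eq_totient_div_two p K
  have h3 := InfinitePlace.card_eq_nrRealPlaces_add_nrComplexPlaces K
  rw [Nat.totient_prime hp.out] at h2
  unfold rank
  rw [h3, h1, h2]
  have : 1 ≤ (p - 1) / 2 := by omega
  omega

omit hp [IsCyclotomicExtension {p} ℚ K] in
/-- The unit group is generated modulo `n`-th powers by `rank K + 1` elements. -/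
theorem KummerUnits.exists_generators_mod_pow (n : ℕ) :
    ∃ h : Option (Fin (rank K)) → (𝓞 K)ˣ, ∀ u : (𝓞 K)ˣ,
      ∃ (c : Option (Fin (rank K)) → ℤ) (v : (𝓞 K)ˣ), u = (∏ i, h i ^ c i) * v ^ n := by
  obtain ⟨t, ht⟩ := IsCyclic.exists_generator (α := torsion K)
  refine ⟨fun o => o.elim (t : (𝓞 K)ˣ) (fundSystem K), fun u => ?_⟩
  obtain ⟨⟨ζ, e⟩, hζe, -⟩ := exist_unique_eq_mul_prod K u
  obtain ⟨k, hk⟩ := Subgroup.mem_zpowers_iff.1 (ht ζ)
  refine ⟨fun o => o.elim k e, 1, ?_⟩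
  simp only [Fintype.prod_option, Option.elim_none, Option.elim_some, one_pow, mul_one]
  rw [hζe]
  simp only
  rw [← hk]
  simp

/-- **Part A**: a family of `(p - 1) / 2` units which is independent modulo `p`-th powers
generates the units modulo `p`-th powers. -/
theorem units_span_of_indep (hp2 : p ≠ 2) (g : Fin ((p - 1) / 2) → (𝓞 K)ˣ)
    (hg : ∀ c : Fin ((p - 1) / 2) → ℕ,
      (∃ v : (𝓞 K)ˣ, ∏ i, g i ^ c i = v ^ p) → ∀ i, p ∣ c i) (u : (𝓞 K)ˣ) :
    ∃ (c : Fin ((p - 1) / 2) → ℕ) (v : (𝓞 K)ˣ), u = (∏ i, g i ^ c i) * v ^ p := by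
  obtain ⟨h, hh⟩ := KummerUnits.exists_generators_mod_pow (K := K) p
  refine KummerUnits.span_of_indep (p := p) ?_ h hh g hg u
  rw [Fintype.card_option, Fintype.card_fin, KummerUnits.rank_add_one_eq (K := K) hp2]

end Fermat.Agent.FLTSmall
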