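import Mathlib

set_option autoImplicit false

namespace Fermat.Agent.FLTSmall.KummerUnits

open Module

section abstract

variable {E : Type*} [CommGroup E] {p n : ℕ}

/-- the class of `u` in `E / E^p` seen as a `ZMod p`-vector space -/
noncomputable def cls (p : ℕ) (u : E) : ModN (Additive E) p :=
  ModN.mkQ p (Additive.ofMul u)

lemma cls_mul (u v : E) : cls p (u * v) = cls p u + cls p v := by
  simp [cls]

lemma cls_prod {ι : Type*} (s : Finset ι) (f : ι → E) :
    cls p (∏ i ∈ s, f i) = ∑ i ∈ s, cls p (f i) := by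
  classical
  induction s using Finset.induction_on with
  | empty => simp [cls]
  | insert a s ha ih => rw [Finset.prod_insert ha, Finset.sum_insert ha, cls_mul, ih]

lemma cls_pow (u : E) (k : ℕ) : cls p (u ^ k) = (k : ZMod p) • cls p u := by
  rw [Nat.cast_smul_eq_nsmul]
  simp [cls]

lemma cls_zpow (u : E) (k : ℤ) : cls p (u ^ k) = (k : ZMod p) • cls p u := by
  rw [Int.cast_smul_eq_zsmul]
  simp [cls]

lemma cls_eq_zero_iff (u : E) : cls p u = 0 ↔ ∃ v : E, u = v ^ p := by
  change Submodule.Quotient.mk (Additive.ofMul u) = 0 ↔ _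
  rw [Submodule.Quotient.mk_eq_zero]
  constructor
  · rintro ⟨m, hm⟩
    refine ⟨Additive.toMul m, ?_⟩
    have : Additive.toMul ((p : ℤ) • m) = u := by
      simpa using congrArg Additive.toMul hm
    rw [← this]
    simp
  · rintro ⟨v, rfl⟩
    exact ⟨Additive.ofMul v, by simp⟩

/-- If `E / E^p` is generated by `n` elements and `g` is a family of `n` elements independent
modulo `p`-th powers, then `g` generates `E` modulo `p`-th powers. -/
theorem span_of_indep [Fact p.Prime] {ι : Type*} [Fintype ι] (hι : Fintype.card ι ≤ n) (h : ι → E)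
    (hh : ∀ u : E, ∃ (c : ι → ℤ) (v : E), u = (∏ i, h i ^ c i) * v ^ p)
    (g : Fin n → E)
    (hg : ∀ c : Fin n → ℕ, (∃ v : E, ∏ i, g i ^ c i = v ^ p) → ∀ i, p ∣ c i) (u : E) :
    ∃ (c : Fin n → ℕ) (v : E), u = (∏ i, g i ^ c i) * v ^ p := by
  classical
  -- the classes of `h` span
  have hspan : Submodule.span (ZMod p) (Set.range fun i => cls p (h i)) = ⊤ := by
    rw [eq_top_iff]
    rintro x -
    obtain ⟨m, rfl⟩ := Submodule.mkQ_surjective _ x
    obtain ⟨c, v, hv⟩ := hh (Additive.toMul m)
    have hx : (Submodule.mkQ _ m : ModN (Additive E) p) = cls p (Additive.toMul m) := rfl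
    rw [hx, hv, cls_mul, cls_prod]
    have hvp : cls p (v ^ p) = 0 := (cls_eq_zero_iff _).2 ⟨v, rfl⟩
    rw [hvp, add_zero]
    refine Submodule.sum_mem _ fun i _ => ?_
    rw [cls_zpow]
    exact Submodule.smul_mem _ _ (Submodule.subset_span ⟨i, rfl⟩)
  have hfin : Module.Finite (ZMod p) (ModN (Additive E) p) := by
    rw [Module.finite_def, ← hspan]
    exact Submodule.fg_span (Set.finite_range _)
  have hle : finrank (ZMod p) (ModN (Additive E) p) ≤ n := by
    have := finrank_range_le_card (R := ZMod p) (fun i => cls p (h i))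
    rw [Set.finrank, hspan, finrank_top] at this
    exact this.trans hι
  -- the classes of `g` are independent
  have hli : LinearIndependent (ZMod p) fun i => cls p (g i) := by
    rw [Fintype.linearIndependent_iff]
    intro c hc i
    have h1 : cls p (∏ i, g i ^ (c i).val) = 0 := by
      rw [cls_prod, ← hc]
      refine Finset.sum_congr rfl fun i _ => ?_
      rw [cls_pow, ZMod.natCast_zmod_val]
    have := hg _ ((cls_eq_zero_iff _).1 h1) i
    rwa [← ZMod.natCast_eq_zero_iff, ZMod.natCast_zmod_val] at this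
  have hcard : Fintype.card (Fin n) = finrank (ZMod p) (ModN (Additive E) p) := by
    have := hli.fintype_card_le_finrank
    simp only [Fintype.card_fin] at this ⊢
    omega
  have hgspan := hli.span_eq_top_of_card_eq_finrank' hcard
  have hu : cls p u ∈ Submodule.span (ZMod p) (Set.range fun i => cls p (g i)) := by
    rw [hgspan]; trivial
  obtain ⟨c, hc⟩ := (Submodule.mem_span_range_iff_exists_fun _).1 hu
  have h2 : cls p (u * (∏ i, g i ^ (c i).val)⁻¹) = 0 := by
    have hinv : ∀ w : E, cls p w⁻¹ = - cls p w := fun w => by simp [cls]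
    rw [cls_mul, hinv, cls_prod, ← hc, add_neg_eq_zero]
    refine Finset.sum_congr rfl fun i _ => ?_
    rw [cls_pow, ZMod.natCast_zmod_val]
  obtain ⟨v, hv⟩ := (cls_eq_zero_iff _).1 h2
  exact ⟨fun i => (c i).val, v, by rw [← hv]; simp⟩

end abstract

end Fermat.Agent.FLTSmall.KummerUnits
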