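import Mathlib
import Fermat.Agent.FLTSmall.Glue
import Fermat.Agent.FLTSmall.CaseII
import Fermat.Agent.S11_helper16.PID

set_option autoImplicit false

namespace Fermat.Agent.FLTSmall

open NumberField

/-- The shape of Kummer's lemma needed by `caseII`, for the field `CyclotomicField p ℚ`. -/
def KummerLemmaFor (p : ℕ) [NeZero p] : Prop :=
  ∀ u : (𝓞 (CyclotomicField p ℚ))ˣ,
    (∃ n : ℤ, (p : 𝓞 (CyclotomicField p ℚ)) ∣ (u : 𝓞 (CyclotomicField p ℚ)) - n) →
      ∃ v : (𝓞 (CyclotomicField p ℚ))ˣ, u = v ^ p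

/-- `CyclotomicField p ℚ` is a cyclotomic extension for the canonical `ℚ`-algebra structure
`DivisionRing.toRatAlgebra` (the one used in statements about number fields). -/
instance isCyclotomicExtension_rat (p : ℕ) [NeZero p] :
    @IsCyclotomicExtension {p} ℚ (CyclotomicField p ℚ) _ _ DivisionRing.toRatAlgebra := by
  have h : @IsCyclotomicExtension {p} ℚ (CyclotomicField p ℚ) _ _
      (CyclotomicField.algebra p ℚ) := inferInstance
  convert h
  exact Subsingleton.elim _ _

instance neZero_five : NeZero 5 := ⟨by norm_num⟩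
instance neZero_seven : NeZero 7 := ⟨by norm_num⟩
instance neZero_eleven : NeZero 11 := ⟨by norm_num⟩
instance neZero_thirteen : NeZero 13 := ⟨by norm_num⟩

instance fact_prime_five : Fact (Nat.Prime 5) := ⟨by norm_num⟩
instance fact_prime_seven : Fact (Nat.Prime 7) := ⟨by norm_num⟩
instance fact_prime_thirteen : Fact (Nat.Prime 13) := ⟨by norm_num⟩

/-- FLT for a prime exponent `p ∈ {5, 7, 11, 13}` from the PID property and Kummer's lemma for
`CyclotomicField p ℚ`. -/
theorem fermatLastTheoremFor_of_pid_of_kummer {p : ℕ} [Fact p.Prime] [NeZero p]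
    (hp : p = 5 ∨ p = 7 ∨ p = 11 ∨ p = 13)
    (hpid : IsPrincipalIdealRing (𝓞 (CyclotomicField p ℚ)))
    (hkl : KummerLemmaFor p) : FermatLastTheoremFor p := by
  refine fermatLastTheoremFor_of_caseII hp ?_
  have hp2 : p ≠ 2 := by rcases hp with rfl | rfl | rfl | rfl <;> norm_num
  exact caseII (K := CyclotomicField p ℚ) hp2 hpid hkl

theorem fermatLastTheoremFor_five (hkl : KummerLemmaFor 5) : FermatLastTheoremFor 5 :=
  fermatLastTheoremFor_of_pid_of_kummer (by norm_num)
    (IsCyclotomicExtension.Rat.five_pid (CyclotomicField 5 ℚ)) hkl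

theorem fermatLastTheoremFor_seven (hkl : KummerLemmaFor 7) : FermatLastTheoremFor 7 :=
  fermatLastTheoremFor_of_pid_of_kummer (by norm_num)
    (Fermat.Agent.S11_helper16.seven_pid (CyclotomicField 7 ℚ)) hkl

theorem fermatLastTheoremFor_eleven (hkl : KummerLemmaFor 11) : FermatLastTheoremFor 11 :=
  fermatLastTheoremFor_of_pid_of_kummer (by norm_num)
    (Fermat.Agent.S11_helper16.eleven_pid (CyclotomicField 11 ℚ)) hkl

theorem fermatLastTheoremFor_thirteen (hkl : KummerLemmaFor 13) : FermatLastTheoremFor 13 :=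
  fermatLastTheoremFor_of_pid_of_kummer (by norm_num)
    (Fermat.Agent.S11_helper16.thirteen_pid (CyclotomicField 13 ℚ)) hkl

end Fermat.Agent.FLTSmall
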