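import Fermat.Agent.FLTSmall.PIDGeneric

set_option autoImplicit false

namespace Fermat.Agent.FLTSmall.PID13

open Fermat.Agent.FLTSmall.PID

open NumberField Polynomial Ideal RingOfIntegers NumberField.Ideal Real InfinitePlace

section thirteen

variable {K : Type*} [Field K] [NumberField K] [IsCyclotomicExtension {13} ℚ K]

theorem fact_prime_13 : Fact (Nat.Prime 13) := ⟨by norm_num⟩

omit [NumberField K] [IsCyclotomicExtension {13} ℚ K] in
theorem geom13 {ζ : K} (hζ : IsPrimitiveRoot ζ 13) :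
    ∑ i ∈ Finset.range 13, hζ.toInteger ^ i = 0 :=
  hζ.toInteger_isPrimitiveRoot.geom_sum_eq_zero (by norm_num)

theorem principal_13_53 :
    ∃ P ∈ primesOver (span {((53 : ℕ) : ℤ)}) (𝓞 K), Submodule.IsPrincipal P := by
  have : Fact (Nat.Prime 53) := ⟨by norm_num⟩
  have : Fact (Nat.Prime 13) := fact_prime_13
  have hζ := IsCyclotomicExtension.zeta_spec 13 ℚ K
  have hΦ := geom13 hζ
  simp only [Finset.sum_range_succ, Finset.sum_range_zero] at hΦ
  set z := hζ.toInteger with hz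
  refine exists_principal_prime_over_of_root hζ 53 16 ?_
    (1 - z + z ^ 3)
    (25 + 10 * z + 19 * z ^ 2 + 3 * z ^ 3 + 2 * z ^ 4 - 8 * z ^ 5 - 2 * z ^ 6 + 5 * z ^ 7
      + 22 * z ^ 8 + 33 * z ^ 9 + 37 * z ^ 10 + 24 * z ^ 11)
    (-8 - 3 * z - 6 * z ^ 2 - z ^ 3 - z ^ 4 + 2 * z ^ 5 - 2 * z ^ 7 - 7 * z ^ 8 - 10 * z ^ 9
      - 11 * z ^ 10 - 7 * z ^ 11)
    77 (255 + 16 * z + z ^ 2) ?_ ?_ ?_
  · rw [cyclotomic_prime]
    simp only [eval_finsetSum, eval_pow, eval_X]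
    decide +revert
  · push_cast
    linear_combination (-(-28 + 13 * z + 24 * z ^ 2)) * hΦ
  · push_cast
    linear_combination (-(8 - 4 * z - 7 * z ^ 2)) * hΦ
  · push_cast
    ring

theorem principal_13_79 :
    ∃ P ∈ primesOver (span {((79 : ℕ) : ℤ)}) (𝓞 K), Submodule.IsPrincipal P := by
  have : Fact (Nat.Prime 79) := ⟨by norm_num⟩
  have : Fact (Nat.Prime 13) := fact_prime_13
  have hζ := IsCyclotomicExtension.zeta_spec 13 ℚ K
  have hΦ := geom13 hζ
  simp only [Finset.sum_range_succ, Finset.sum_range_zero] at hΦ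
  set z := hζ.toInteger with hz
  refine exists_principal_prime_over_of_root hζ 79 62 ?_
    (1 - z - z ^ 4)
    (62 + 63 * z + 49 * z ^ 2 + 8 * z ^ 3 + 29 * z ^ 4 + 51 * z ^ 5 + 59 * z ^ 6 + 26 * z ^ 7
      + 14 * z ^ 8 + 24 * z ^ 9 + 42 * z ^ 10 + 27 * z ^ 11)
    (-49 - 49 * z - 38 * z ^ 2 - 6 * z ^ 3 - 23 * z ^ 4 - 40 * z ^ 5 - 46 * z ^ 6 - 20 * z ^ 7
      - 11 * z ^ 8 - 19 * z ^ 9 - 33 * z ^ 10 - 21 * z ^ 11)
    (-187043) (-238329 - 3844 * z - 62 * z ^ 2 - z ^ 3) ?_ ?_ ?_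
  · rw [cyclotomic_prime]
    simp only [eval_finsetSum, eval_pow, eval_X]
    decide +revert
  · push_cast
    linear_combination (-(-17 + 18 * z - 15 * z ^ 2 - 27 * z ^ 3)) * hΦ
  · push_cast
    linear_combination (-(13 - 14 * z + 12 * z ^ 2 + 21 * z ^ 3)) * hΦ
  · push_cast
    ring

theorem principal_13_131 :
    ∃ P ∈ primesOver (span {((131 : ℕ) : ℤ)}) (𝓞 K), Submodule.IsPrincipal P := by
  have : Fact (Nat.Prime 131) := ⟨by norm_num⟩
  have : Fact (Nat.Prime 13) := fact_prime_13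
  have hζ := IsCyclotomicExtension.zeta_spec 13 ℚ K
  have hΦ := geom13 hζ
  simp only [Finset.sum_range_succ, Finset.sum_range_zero] at hΦ
  set z := hζ.toInteger with hz
  refine exists_principal_prime_over_of_root hζ 131 80 ?_
    (1 - z - z ^ 3)
    (111 + 78 * z + 17 * z ^ 2 + 67 * z ^ 3 + 84 * z ^ 4 + 40 * z ^ 5 + 46 * z ^ 6 + 69 * z ^ 7
      + 48 * z ^ 8 + 33 * z ^ 9 + 41 * z ^ 10 + 28 * z ^ 11)
    (-68 - 47 * z - 10 * z ^ 2 - 41 * z ^ 3 - 51 * z ^ 4 - 24 * z ^ 5 - 28 * z ^ 6 - 42 * z ^ 7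
      - 29 * z ^ 8 - 20 * z ^ 9 - 25 * z ^ 10 - 17 * z ^ 11)
    (-3909) (-6401 - 80 * z - z ^ 2) ?_ ?_ ?_
  · rw [cyclotomic_prime]
    simp only [eval_finsetSum, eval_pow, eval_X]
    decide +revert
  · push_cast
    linear_combination (-(-20 - 13 * z - 28 * z ^ 2)) * hΦ
  · push_cast
    linear_combination (-(12 + 8 * z + 17 * z ^ 2)) * hΦ
  · push_cast
    ring

set_option maxRecDepth 100000 in
theorem principal_13_157 :
    ∃ P ∈ primesOver (span {((157 : ℕ) : ℤ)}) (𝓞 K), Submodule.IsPrincipal P := by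
  have : Fact (Nat.Prime 157) := ⟨by norm_num⟩
  have : Fact (Nat.Prime 13) := fact_prime_13
  have hζ := IsCyclotomicExtension.zeta_spec 13 ℚ K
  have hΦ := geom13 hζ
  simp only [Finset.sum_range_succ, Finset.sum_range_zero] at hΦ
  set z := hζ.toInteger with hz
  refine exists_principal_prime_over_of_root hζ 157 75 ?_
    (1 - z + z ^ 2 + z ^ 4)
    (89 + 86 * z + 42 * z ^ 2 + 77 * z ^ 3 + 67 * z ^ 4 + 25 * z ^ 5 + 37 * z ^ 6 + 56 * z ^ 7
      + 73 * z ^ 8 + 113 * z ^ 9 + 124 * z ^ 10 + 76 * z ^ 11)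
    (-43 - 41 * z - 20 * z ^ 2 - 37 * z ^ 3 - 32 * z ^ 4 - 12 * z ^ 5 - 18 * z ^ 6 - 27 * z ^ 7
      - 35 * z ^ 8 - 54 * z ^ 9 - 59 * z ^ 10 - 36 * z ^ 11)
    201568 (421949 + 5626 * z + 75 * z ^ 2 + z ^ 3) ?_ ?_ ?_
  · rw [cyclotomic_prime]
    simp only [eval_finsetSum, eval_pow, eval_X]
    decide +revert
  · push_cast
    linear_combination (-(-68 + 65 * z + 48 * z ^ 2 + 76 * z ^ 3)) * hΦ
  · push_cast
    linear_combination (-(32 - 31 * z - 23 * z ^ 2 - 36 * z ^ 3)) * hΦ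
  · push_cast
    ring

theorem irreducible_cubic_mod_three :
    Irreducible ((X ^ 3 - X - 1 : ℤ[X]).map (Int.castRingHom (ZMod 3))) := by
  have h : (X ^ 3 - X - 1 : ℤ[X]).map (Int.castRingHom (ZMod 3)) = X ^ 3 - X - 1 := by simp
  rw [h]
  have hm : (X ^ 3 - X - 1 : (ZMod 3)[X]).Monic := by monicity!
  have hd : (X ^ 3 - X - 1 : (ZMod 3)[X]).natDegree = 3 := by compute_degree!
  rw [hm.irreducible_iff_roots_eq_zero_of_degree_le_three (by omega) (by omega)]
  apply Multiset.eq_zero_of_forall_notMem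
  intro x hx
  rw [mem_roots hm.ne_zero] at hx
  simp only [IsRoot, eval_sub, eval_pow, eval_X, eval_one] at hx
  revert x
  decide

theorem map_C_three_mod_three : (C 3 : ℤ[X]).map (Int.castRingHom (ZMod 3)) = 0 := by
  rw [map_C]
  have h : (Int.castRingHom (ZMod 3)) 3 = 0 := by decide
  rw [h, map_zero]

theorem principal_13_3 :
    ∃ P ∈ primesOver (span {((3 : ℕ) : ℤ)}) (𝓞 K), Submodule.IsPrincipal P := by
  have : Fact (Nat.Prime 3) := ⟨by norm_num⟩
  have : Fact (Nat.Prime 13) := fact_prime_13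
  have hζ := IsCyclotomicExtension.zeta_spec 13 ℚ K
  have hΦ := geom13 hζ
  simp only [Finset.sum_range_succ, Finset.sum_range_zero] at hΦ
  set z := hζ.toInteger with hz
  have hav : aeval z (X ^ 3 - X - 1 : ℤ[X]) = z ^ 3 - z - 1 := by simp
  refine exists_principal_prime_over hζ 3 (X ^ 3 - X - 1) irreducible_cubic_mod_three ?_ ?_
    (z ^ 3 - z - 1)
    (1 + z ^ 2 + z ^ 3 + 2 * z ^ 5 + z ^ 7 + 2 * z ^ 8 - z ^ 9 + 3 * z ^ 10)
    1 0 1 ?_ ?_ ?_
  · have h : (X ^ 3 - X - 1 : ℤ[X]).map (Int.castRingHom (ZMod 3)) = X ^ 3 - X - 1 := by simp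
    rw [h]
    monicity!
  · have key : cyclotomic 13 ℤ = (X ^ 3 - X - 1) *
        (2 + 2 * X ^ 2 + 2 * X ^ 3 + X ^ 5 + 2 * X ^ 7 + X ^ 8 + X ^ 9) +
        C 3 * (1 + X + X ^ 2 + X ^ 3 + X ^ 4 + X ^ 7 + X ^ 8 + X ^ 9) := by
      rw [cyclotomic_prime]
      simp only [Finset.sum_range_succ, Finset.sum_range_zero, map_ofNat]
      ring
    have h3 : (C 3 : ℤ[X]).map (Int.castRingHom (ZMod 3)) = 0 := map_C_three_mod_three
    have := congrArg (Polynomial.map (Int.castRingHom (ZMod 3))) key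
    rw [Polynomial.map_add, Polynomial.map_mul, Polynomial.map_mul, h3, zero_mul, add_zero] at this
    exact ⟨_, this⟩
  · push_cast
    linear_combination (-(-4 + 3 * z)) * hΦ
  · rw [hav]; ring
  · rw [hav]; ring

end thirteen

section thirteenMain

variable (K : Type*) [Field K] [NumberField K] [IsCyclotomicExtension {13} ℚ K]

theorem minkowski_floor_13 :
    ⌊(4 / π) ^ nrComplexPlaces K *
      ((Module.finrank ℚ K).factorial / (Module.finrank ℚ K : ℝ) ^ Module.finrank ℚ K *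
        √|(discr K : ℝ)|)⌋₊ ≤ 306 := by
  have : Fact (Nat.Prime 13) := fact_prime_13
  have h1 : Module.finrank ℚ K = 12 := by
    rw [IsCyclotomicExtension.finrank (n := 13) K (cyclotomic.irreducible_rat (by norm_num))]
    rw [Nat.totient_prime (by norm_num)]
  have h2 : nrComplexPlaces K = 6 := by
    rw [IsCyclotomicExtension.Rat.nrComplexPlaces_eq_totient_div_two 13 K,
      Nat.totient_prime (by norm_num)]
  have h3 : discr K = 13 ^ 11 := by
    rw [IsCyclotomicExtension.Rat.discr_prime 13 K]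
    norm_num
  rw [h1, h2, h3]
  have hsqrt : √|((13 ^ 11 : ℤ) : ℝ)| < 1338716 := by
    rw [Real.sqrt_lt' (by norm_num)]
    norm_num
  have hpi : (4 / π) ^ 6 ≤ (4 / 3.1415) ^ 6 := by
    gcongr
    exact Real.pi_gt_d4.le
  rw [← Nat.lt_succ_iff, Nat.floor_lt (by positivity)]
  have key : (4 / π) ^ 6 * (((12 : ℕ).factorial : ℝ) / ((12 : ℕ) : ℝ) ^ 12 * √|((13 ^ 11 : ℤ) : ℝ)|)
      < (307 : ℝ) := by
    calc (4 / π) ^ 6 * (((12 : ℕ).factorial : ℝ) / ((12 : ℕ) : ℝ) ^ 12 * √|((13 ^ 11 : ℤ) : ℝ)|)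
        ≤ (4 / 3.1415) ^ 6 * (((12 : ℕ).factorial : ℝ) / ((12 : ℕ) : ℝ) ^ 12 * 1338716) := by
          gcongr
      _ < (307 : ℝ) := by
          norm_num [Nat.factorial]
  exact_mod_cast key

theorem two_le_orderOf_zmod13 (x : ZMod 13) (h0 : x ≠ 0) (h1 : x ≠ 1) : 2 ≤ orderOf x := by
  have : Fact (Nat.Prime 13) := fact_prime_13
  have h12 : x ^ 12 = 1 := ZMod.pow_card_sub_one_eq_one h0
  have hd : orderOf x ∣ 12 := orderOf_dvd_of_pow_eq_one h12
  have hne0 : orderOf x ≠ 0 := by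
    intro h; rw [h] at hd; omega
  have hne1 : orderOf x ≠ 1 := by
    rw [Ne, orderOf_eq_one_iff]; exact h1
  omega

theorem orderOf_zmod13_two : orderOf ((2 : ℕ) : ZMod 13) = 12 := by
  rw [orderOf_eq_iff (by norm_num)]
  decide

theorem orderOf_zmod13_five : orderOf ((5 : ℕ) : ZMod 13) = 4 := by
  rw [orderOf_eq_iff (by norm_num)]
  decide

theorem orderOf_zmod13_seven : orderOf ((7 : ℕ) : ZMod 13) = 12 := by
  rw [orderOf_eq_iff (by norm_num)]
  decide

theorem orderOf_zmod13_eleven : orderOf ((11 : ℕ) : ZMod 13) = 12 := by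
  rw [orderOf_eq_iff (by norm_num)]
  decide

theorem orderOf_zmod13_seventeen : orderOf ((17 : ℕ) : ZMod 13) = 6 := by
  rw [orderOf_eq_iff (by norm_num)]
  decide

theorem thirteen_pid_aux : IsPrincipalIdealRing (𝓞 K) := by
  have : Fact (Nat.Prime 13) := fact_prime_13
  have : IsGalois ℚ K := IsCyclotomicExtension.isGalois {13} ℚ K
  apply RingOfIntegers.isPrincipalIdealRing_of_isPrincipal_of_lt_or_isPrincipal_of_mem_primesOver_of_mem_Icc
  have hM := minkowski_floor_13 K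
  intro q hq hqprime
  rw [Finset.mem_Icc] at hq
  have hq306 : q ≤ 306 := hq.2.trans hM
  have : Fact q.Prime := ⟨hqprime⟩
  by_cases h13 : q = 13
  · subst h13
    obtain ⟨⟨P, hP1, hP2⟩⟩ := (span {((13 : ℕ) : ℤ)}).nonempty_primesOver (S := 𝓞 K)
    refine ⟨P, ⟨hP1, hP2⟩, Or.inr ?_⟩
    rw [IsCyclotomicExtension.Rat.eq_span_zeta_sub_one_of_liesOver' 13 K
      (IsCyclotomicExtension.zeta_spec 13 ℚ K) P]
    exact ⟨⟨_, rfl⟩⟩
  by_cases h3 : q = 3
  · subst h3
    obtain ⟨P, hP, hpr⟩ := principal_13_3 (K := K)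
    exact ⟨P, hP, Or.inr hpr⟩
  by_cases h53 : q = 53
  · subst h53
    obtain ⟨P, hP, hpr⟩ := principal_13_53 (K := K)
    exact ⟨P, hP, Or.inr hpr⟩
  by_cases h79 : q = 79
  · subst h79
    obtain ⟨P, hP, hpr⟩ := principal_13_79 (K := K)
    exact ⟨P, hP, Or.inr hpr⟩
  by_cases h131 : q = 131
  · subst h131
    obtain ⟨P, hP, hpr⟩ := principal_13_131 (K := K)
    exact ⟨P, hP, Or.inr hpr⟩
  by_cases h157 : q = 157
  · subst h157
    obtain ⟨P, hP, hpr⟩ := principal_13_157 (K := K)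
    exact ⟨P, hP, Or.inr hpr⟩
  obtain ⟨⟨P, hP1, hP2⟩⟩ := (span {(q : ℤ)}).nonempty_primesOver (S := 𝓞 K)
  refine ⟨P, ⟨hP1, hP2⟩, Or.inl ?_⟩
  have hnd : ¬ q ∣ 13 := by
    intro hd
    rcases (Nat.dvd_prime (by norm_num : Nat.Prime 13)).1 hd with h | h
    · exact hqprime.one_lt.ne' h
    · exact h13 h
  rw [IsCyclotomicExtension.Rat.inertiaDeg_eq_of_not_dvd q K P hnd]
  refine lt_of_le_of_lt hM ?_
  by_cases hbig : 18 ≤ q
  · have hne0 : (q : ZMod 13) ≠ 0 := by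
      intro h0
      rw [ZMod.natCast_eq_zero_iff] at h0
      rcases (Nat.dvd_prime hqprime).1 h0 with h | h
      · omega
      · exact h13 h.symm
    have hne1 : (q : ZMod 13) ≠ 1 := by
      intro h1
      have hmod : q % 13 = 1 := by
        have := (ZMod.natCast_eq_natCast_iff' q 1 13).1 (by simpa using h1)
        simpa using this
      have hq' : q = 13 * (q / 13) + 1 := by omega
      have hk : q / 13 ≤ 23 := by omega
      generalize q / 13 = k at hq' hk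
      subst hq'
      interval_cases k <;> first | omega | (norm_num at hqprime)
    have h2 := two_le_orderOf_zmod13 (q : ZMod 13) hne0 hne1
    calc 306 < q ^ 2 := by nlinarith
      _ ≤ q ^ orderOf (q : ZMod 13) := Nat.pow_le_pow_right (by omega) h2
  · have hsmall : q = 2 ∨ q = 5 ∨ q = 7 ∨ q = 11 ∨ q = 17 := by
      have : q < 18 := by omega
      interval_cases q <;> first | omega | (norm_num at hqprime)
    rcases hsmall with rfl | rfl | rfl | rfl | rfl
    · rw [orderOf_zmod13_two]; norm_num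
    · rw [orderOf_zmod13_five]; norm_num
    · rw [orderOf_zmod13_seven]; norm_num
    · rw [orderOf_zmod13_eleven]; norm_num
    · rw [orderOf_zmod13_seventeen]; norm_num

end thirteenMain

end Fermat.Agent.FLTSmall.PID13

namespace Fermat.Agent.FLTSmall

open NumberField

/-- The ring of integers of the 13-th cyclotomic field is a principal ideal domain. -/
theorem thirteen_pid (K : Type*) [Field K] [NumberField K] [IsCyclotomicExtension {13} ℚ K] :
    IsPrincipalIdealRing (𝓞 K) :=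
  PID13.thirteen_pid_aux K

end Fermat.Agent.FLTSmall
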