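import Mathlib

set_option autoImplicit false

namespace Fermat.Agent.FLTSmall.PID

open NumberField Polynomial Ideal RingOfIntegers NumberField.Ideal

section generic

variable {n : ℕ} [NeZero n] {K : Type*} [Field K] [NumberField K] [IsCyclotomicExtension {n} ℚ K]
  {ζ : K} (hζ : IsPrimitiveRoot ζ n)

/-- Kummer–Dedekind plus an explicit generator: a principal prime over `q`. -/
theorem exists_principal_prime_over (q : ℕ) [Fact q.Prime] (Q : ℤ[X])
    (hirr : Irreducible (Q.map (Int.castRingHom (ZMod q))))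
    (hmonic : (Q.map (Int.castRingHom (ZMod q))).Monic)
    (hdvd : Q.map (Int.castRingHom (ZMod q)) ∣ (cyclotomic n ℤ).map (Int.castRingHom (ZMod q)))
    (α β γ δ ε : 𝓞 K) (h1 : (q : 𝓞 K) = α * β) (h2 : aeval hζ.toInteger Q = α * γ)
    (h3 : α = (q : 𝓞 K) * δ + aeval hζ.toInteger Q * ε) :
    ∃ P ∈ primesOver (span {(q : ℤ)}) (𝓞 K), Submodule.IsPrincipal P := by
  have hexp : ¬ q ∣ exponent hζ.toInteger := by
    rw [exponent_eq_one_iff.mpr <| IsCyclotomicExtension.Rat.adjoin_singleton_eq_top hζ]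
    exact (Fact.out : q.Prime).not_dvd_one
  have hmin : minpoly ℤ hζ.toInteger = cyclotomic n ℤ := by
    rw [cyclotomic_eq_minpoly hζ (NeZero.pos _)]
    exact (RingOfIntegers.minpoly_coe hζ.toInteger).symm
  have hQ : Q.map (Int.castRingHom (ZMod q)) ∈ monicFactorsMod hζ.toInteger q := by
    rw [Multiset.mem_toFinset, Polynomial.mem_normalizedFactors_iff
      (map_monic_ne_zero (minpoly.monic hζ.toInteger.isIntegral)), hmin]
    exact ⟨hirr, hmonic, hdvd⟩
  refine ⟨_, ((primesOverSpanEquivMonicFactorsMod hexp).symm ⟨_, hQ⟩).2, ?_⟩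
  rw [primesOverSpanEquivMonicFactorsMod_symm_apply_eq_span hexp hQ]
  refine ⟨α, ?_⟩
  apply le_antisymm
  · rw [Ideal.span_le]
    intro x hx
    rcases hx with rfl | rfl
    · exact Ideal.mem_span_singleton.2 ⟨β, h1⟩
    · exact Ideal.mem_span_singleton.2 ⟨γ, h2⟩
  · rw [Ideal.submodule_span_eq, Ideal.span_le]
    intro x hx
    rw [Set.mem_singleton_iff] at hx
    rw [hx, h3]
    exact Ideal.add_mem _ (Ideal.mul_mem_right _ _ (Ideal.subset_span (by simp)))
      (Ideal.mul_mem_right _ _ (Ideal.subset_span (by simp)))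

/-- Degree one case: `q` splits, `t` is a root of the cyclotomic polynomial mod `q`. -/
theorem exists_principal_prime_over_of_root (q : ℕ) [Fact q.Prime] (t : ℤ)
    (ht : eval ((t : ℤ) : ZMod q) (cyclotomic n (ZMod q)) = 0)
    (α β γ δ ε : 𝓞 K) (h1 : (q : 𝓞 K) = α * β) (h2 : hζ.toInteger - (t : 𝓞 K) = α * γ)
    (h3 : α = (q : 𝓞 K) * δ + (hζ.toInteger - (t : 𝓞 K)) * ε) :
    ∃ P ∈ primesOver (span {(q : ℤ)}) (𝓞 K), Submodule.IsPrincipal P := by
  have hQ : (X - C t : ℤ[X]).map (Int.castRingHom (ZMod q)) = X - C ((t : ℤ) : ZMod q) := by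
    simp
  have hav : aeval hζ.toInteger (X - C t : ℤ[X]) = hζ.toInteger - (t : 𝓞 K) := by
    simp
  refine exists_principal_prime_over hζ q (X - C t) ?_ ?_ ?_ α β γ δ ε h1 ?_ ?_
  · rw [hQ]; exact irreducible_X_sub_C _
  · rw [hQ]; exact monic_X_sub_C _
  · rw [hQ, map_cyclotomic_int, dvd_iff_isRoot]; exact ht
  · rw [hav]; exact h2
  · rw [hav]; exact h3

end generic

end Fermat.Agent.FLTSmall.PID
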